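import Mathlib
import Fermat.Prelude.Def_AlgebraicGeometry_RelativePicardFunctor

/-!
# S25 / block GLUE / leaf G3 (part 1): `IsInvertible` is local

`Scheme.Modules.IsInvertible` is the Prelude's notion (local triviality of `pullback U.ι`).
-/

set_option autoImplicit false

universe u

open CategoryTheory CategoryTheory.Limits AlgebraicGeometry

namespace Fermat.Agent.S25.H206

/-- `IsInvertible` is invariant under isomorphism. -/
theorem isInvertible_of_iso {X : Scheme.{u}} {M N : X.Modules} (e : M ≅ N)
    (h : Scheme.Modules.IsInvertible M) : Scheme.Modules.IsInvertible N := by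
  refine ⟨fun x => ?_⟩
  obtain ⟨U, hxU, ⟨t⟩⟩ := h.1 x
  exact ⟨U, hxU, ⟨((Scheme.Modules.pullback U.ι).mapIso e).symm ≪≫ t⟩⟩

theorem isInvertible_iff_of_iso {X : Scheme.{u}} {M N : X.Modules} (e : M ≅ N) :
    Scheme.Modules.IsInvertible M ↔ Scheme.Modules.IsInvertible N :=
  ⟨isInvertible_of_iso e, isInvertible_of_iso e.symm⟩

/-- A trivialization of the pullback of `M` along an open immersion `j : U ⟶ X` yields a
trivialization of the pullback of `M` along the inclusion of the open subscheme `j.opensRange`. -/
noncomputable def trivializationOpensRange {X U : Scheme.{u}} (j : U ⟶ X) [IsOpenImmersion j]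
    (M : X.Modules)
    (t : (Scheme.Modules.pullback j).obj M ≅ SheafOfModules.unit U.ringCatSheaf) :
    (Scheme.Modules.pullback j.opensRange.ι).obj M ≅
      SheafOfModules.unit j.opensRange.toScheme.ringCatSheaf :=
  (Scheme.Modules.pullbackCongr (j.isoOpensRange_inv_comp).symm).app M ≪≫
    ((Scheme.Modules.pullbackComp j.isoOpensRange.inv j).app M).symm ≪≫
    (Scheme.Modules.pullback j.isoOpensRange.inv).mapIso t ≪≫
    Scheme.Modules.pullbackUnitIso j.isoOpensRange.inv

/-- Open-immersion form of the definition of `IsInvertible`: it suffices to trivialize the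
pullback of `M` along open immersions whose ranges cover `X`. -/
theorem isInvertible_of_openImmersions {X : Scheme.{u}} (M : X.Modules)
    (h : ∀ x : X, ∃ (U : Scheme.{u}) (j : U ⟶ X) (_ : IsOpenImmersion j),
      x ∈ Set.range j ∧
        Nonempty ((Scheme.Modules.pullback j).obj M ≅ SheafOfModules.unit U.ringCatSheaf)) :
    Scheme.Modules.IsInvertible M := by
  refine ⟨fun x => ?_⟩
  obtain ⟨U, j, hj, hx, ⟨t⟩⟩ := h x
  exact ⟨j.opensRange, hx, ⟨trivializationOpensRange j M t⟩⟩

/-- Converse: an invertible module is trivialized along open immersions covering `X`. -/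
theorem isInvertible_iff_openImmersions {X : Scheme.{u}} (M : X.Modules) :
    Scheme.Modules.IsInvertible M ↔
      ∀ x : X, ∃ (U : Scheme.{u}) (j : U ⟶ X) (_ : IsOpenImmersion j),
        x ∈ Set.range j ∧
          Nonempty ((Scheme.Modules.pullback j).obj M ≅ SheafOfModules.unit U.ringCatSheaf) := by
  refine ⟨fun h x => ?_, isInvertible_of_openImmersions M⟩
  obtain ⟨U, hxU, ht⟩ := h.1 x
  exact ⟨U.toScheme, U.ι, inferInstance, by simpa using hxU, ht⟩

/-- **G3 (part 1), open-immersion form.** If the pullbacks of `M` along a jointly surjective family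
of open immersions are invertible, then `M` is invertible. -/
theorem isInvertible_of_openImmersion_cover {X : Scheme.{u}} (M : X.Modules)
    {ι : Type*} (U : ι → Scheme.{u}) (j : ∀ i, U i ⟶ X) [∀ i, IsOpenImmersion (j i)]
    (hcov : ∀ x : X, ∃ i, x ∈ Set.range (j i))
    (h : ∀ i, Scheme.Modules.IsInvertible ((Scheme.Modules.pullback (j i)).obj M)) :
    Scheme.Modules.IsInvertible M := by
  refine isInvertible_of_openImmersions M fun x => ?_
  obtain ⟨i, y, rfl⟩ := hcov x
  obtain ⟨V, hyV, ⟨t⟩⟩ := (h i).1 y
  refine ⟨V.toScheme, V.ι ≫ j i, inferInstance, ⟨⟨y, hyV⟩, rfl⟩, ⟨?_⟩⟩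
  exact ((Scheme.Modules.pullbackComp V.ι (j i)).app M).symm ≪≫ t

/-- **G3 (part 1).** Invertibility is local: if `U i` is an open cover of `X` and the restriction
of `M` to every `U i` is invertible, then `M` is invertible. -/
theorem isInvertible_of_isOpenCover {X : Scheme.{u}} (M : X.Modules)
    {ι : Type*} (U : ι → X.Opens) (hU : ⨆ i, U i = ⊤)
    (h : ∀ i, Scheme.Modules.IsInvertible ((Scheme.Modules.pullback (U i).ι).obj M)) :
    Scheme.Modules.IsInvertible M := by
  refine isInvertible_of_openImmersion_cover M (fun i => (U i).toScheme) (fun i => (U i).ι)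
    (fun x => ?_) h
  have hx : x ∈ (⨆ i, U i : X.Opens) := by rw [hU]; trivial
  obtain ⟨i, hi⟩ := TopologicalSpace.Opens.mem_iSup.mp hx
  exact ⟨i, by simpa using hi⟩

/-- The same statement with the restriction functor in place of the pullback. -/
theorem isInvertible_of_isOpenCover_restrict {X : Scheme.{u}} (M : X.Modules)
    {ι : Type*} (U : ι → X.Opens) (hU : ⨆ i, U i = ⊤)
    (h : ∀ i, Scheme.Modules.IsInvertible (M.restrict (U i).ι)) :
    Scheme.Modules.IsInvertible M :=
  isInvertible_of_isOpenCover M U hU fun i =>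
    isInvertible_of_iso ((Scheme.Modules.restrictFunctorIsoPullback (U i).ι).app M) (h i)

/-- Restriction of an invertible module along an open immersion is invertible. -/
theorem isInvertible_restrict {X Y : Scheme.{u}} (f : X ⟶ Y) [IsOpenImmersion f]
    {M : Y.Modules} (h : Scheme.Modules.IsInvertible M) :
    Scheme.Modules.IsInvertible (M.restrict f) :=
  isInvertible_of_iso ((Scheme.Modules.restrictFunctorIsoPullback f).app M).symm (h.pullback f)

end Fermat.Agent.S25.H206
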