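/-
S25 / block ABEL / AB-ALG leaf AA6 (helper206): every gluing datum of degree `0` over an
algebraically closed field is in the algebraic Abel family (`H747.StmtAA6`), from
* D3-a (`euler_eq_of_injective`), D6-a/b (`finrank_H0_unit`, `finrank_H1_unit`) of the block
  DEGREE, as hypotheses in their frozen form (`H10/DegreeSkel.lean`);
* PTS (helper627, private copy `H206/SurjPts.lean`), AA1 (`H747.tupCartier`).
-/
import Fermat.Agent.S25.H206.SurjGD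
import Fermat.Agent.S25.H747.AlgAbelTop
import Fermat.Agent.S25.H206.SurjPts
import Fermat.Agent.S25.H265.GDCCurve
import Fermat.Agent.S25.H207.ChartCor

set_option autoImplicit false
set_option linter.style.haveILetI false
set_option linter.unusedSectionVars false

universe u

open scoped TensorProduct
open Module

namespace Fermat.Agent.S25.H206

open Fermat.Agent.S25

noncomputable section

variable {k : Type u} [Field k]
  {B₀ B₁ B₀₁ : Type u} [CommRing B₀] [CommRing B₁] [CommRing B₀₁]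
  [Algebra k B₀] [Algebra k B₁] [Algebra k B₀₁] [Algebra B₀ B₀₁] [Algebra B₁ B₀₁]
  [IsScalarTower k B₀ B₀₁] [IsScalarTower k B₁ B₀₁]

/-! ### Hypotheses from the block DEGREE, in frozen form -/

variable (k B₀ B₁ B₀₁) in
/-- D3-a (`H10/DegreeSkel.lean`, `euler_eq_of_injective`). -/
def HypEulerInj : Prop :=
  ∀ {x : B₀} {y : B₁} {e : B₁ →ₐ[k] k} (_ : IsCurveChart k B₀ B₁ B₀₁ x y e) {K : Type u}
    [Field K] [Algebra k K] {G G' : CurveGD k B₀ B₁ B₀₁ K} (f : H10.GDHom G G')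
    (_ : f.Injective) (_ : Module.Finite K (G'.N₀ ⧸ LinearMap.range f.f₀))
    (_ : Module.Finite K (G'.N₁ ⧸ LinearMap.range f.f₁)),
    G'.euler = G.euler + Module.finrank K (G'.N₀ ⧸ LinearMap.range f.f₀)
      + Module.finrank K (G'.N₁ ⧸ LinearMap.range f.f₁)
      - Module.finrank K (G'.N₀₁ ⧸ LinearMap.range f.f₀₁)

variable (k B₀ B₁ B₀₁) in
/-- D6-a (`finrank_H0_unit`). -/
def HypH0Unit : Prop :=
  ∀ {x : B₀} {y : B₁} {e : B₁ →ₐ[k] k} (_ : IsCurveChart k B₀ B₁ B₀₁ x y e) (K : Type u)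
    [Field K] [Algebra k K],
    Module.finrank K (GlueDatum.unit K (K ⊗[k] B₀) (K ⊗[k] B₁) (K ⊗[k] B₀₁)).H0 = 1

variable (k B₀ B₁ B₀₁) in
/-- D6-b (`finrank_H1_unit`). -/
def HypH1Unit : Prop :=
  ∀ {x : B₀} {y : B₁} {e : B₁ →ₐ[k] k} (_ : IsCurveChart k B₀ B₁ B₀₁ x y e) (K : Type u)
    [Field K] [Algebra k K],
    Module.finrank K (GlueDatum.unit K (K ⊗[k] B₀) (K ⊗[k] B₁) (K ⊗[k] B₀₁)).H1 =
      H10.genus k B₀ B₁ B₀₁

/-! ### Points -/

section Points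

variable {K : Type u} [Field K] [Algebra k K] {B : Type u} [CommRing B] [Algebra k B]

/-- The `k`-point of `Spec B` with values in `K` underlying a `K`-point of `Spec (K ⊗ B)`. -/
def ptOfAlgHom (ψ : K ⊗[k] B →ₐ[K] K) : B →ₐ[k] K :=
  (ψ.restrictScalars k).comp (Algebra.TensorProduct.includeRight (R := k) (A := K) (B := B))

theorem evalHom_ptOfAlgHom (ψ : K ⊗[k] B →ₐ[K] K) : H747.evalHom (ptOfAlgHom ψ) = ψ := by
  apply Algebra.TensorProduct.ext'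
  intro a b
  rw [H747.evalHom_tmul]
  show a * ψ ((1 : K) ⊗ₜ[k] b) = ψ (a ⊗ₜ[k] b)
  have : a ⊗ₜ[k] b = a • ((1 : K) ⊗ₜ[k] b) := by
    rw [TensorProduct.smul_tmul', smul_eq_mul, mul_one]
  rw [this, map_smul, smul_eq_mul]

theorem graphIdeal_ptOfAlgHom (ψ : K ⊗[k] B →ₐ[K] K) :
    H747.graphIdeal (ptOfAlgHom ψ) = RingHom.ker ψ := by
  unfold H747.graphIdeal
  rw [evalHom_ptOfAlgHom]

end Points

section ChartPoints

variable {K : Type u} [Field K] [Algebra k K]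

/-- Conversion of chart points. -/
def chartPtOf (P : (K ⊗[k] B₀ →ₐ[K] K) ⊕ (K ⊗[k] B₁ →ₐ[K] K)) : H746.ChartPt k B₀ B₁ K :=
  Sum.map ptOfAlgHom ptOfAlgHom P

theorem ptI₀_chartPtOf (P : (K ⊗[k] B₀ →ₐ[K] K) ⊕ (K ⊗[k] B₁ →ₐ[K] K)) :
    H747.ptI₀ B₀₁ (chartPtOf P) = Pts.ptIdeal₀ (K ⊗[k] B₀₁) P := by
  rcases P with ψ | ψ
  · exact graphIdeal_ptOfAlgHom ψ
  · show Ideal.comap _ (Ideal.map _ (H747.graphIdeal (ptOfAlgHom ψ))) = _
    rw [graphIdeal_ptOfAlgHom]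
    rfl

theorem ptI₁_chartPtOf (P : (K ⊗[k] B₀ →ₐ[K] K) ⊕ (K ⊗[k] B₁ →ₐ[K] K)) :
    H747.ptI₁ B₀₁ (chartPtOf P) = Pts.ptIdeal₁ (K ⊗[k] B₀₁) P := by
  rcases P with ψ | ψ
  · show Ideal.comap _ (Ideal.map _ (H747.graphIdeal (ptOfAlgHom ψ))) = _
    rw [graphIdeal_ptOfAlgHom]
    rfl
  · exact graphIdeal_ptOfAlgHom ψ

end ChartPoints

/-! ### The rings `K ⊗ Bᵢ` -/

section Rings

variable [IsAlgClosed k] {x : B₀} {y : B₁} {e : B₁ →ₐ[k] k}
  (hC : IsCurveChart k B₀ B₁ B₀₁ x y e) (K : Type u) [Field K] [Algebra k K]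

include hC

theorem away₀ : IsLocalization.Away ((1 : K) ⊗ₜ[k] x) (K ⊗[k] B₀₁) :=
  haveI := hC.away₀
  H747.isLocalization_away_tensor (k := k) K B₀ B₀₁ x

theorem away₁ : IsLocalization.Away ((1 : K) ⊗ₜ[k] y) (K ⊗[k] B₀₁) :=
  haveI := hC.away₁
  H747.isLocalization_away_tensor (k := k) K B₁ B₀₁ y

theorem one_tmul_x_ne_zero : ((1 : K) ⊗ₜ[k] x : K ⊗[k] B₀) ≠ 0 := by
  intro h
  have h1 := H747.chart_mul_eq_one hC K
  rw [h, map_zero, zero_mul] at h1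
  haveI := H207.isDomain_tensor_chart₀₁ hC K
  exact zero_ne_one h1

theorem powers_le₀ :
    Submonoid.powers ((1 : K) ⊗ₜ[k] x : K ⊗[k] B₀) ≤ nonZeroDivisors (K ⊗[k] B₀) := by
  haveI := H207.isDedekindDomain_tensor_chart₀ hC K
  exact powers_le_nonZeroDivisors_of_noZeroDivisors (one_tmul_x_ne_zero hC K)

theorem dedekind₀₁ : IsDedekindDomain (K ⊗[k] B₀₁) := by
  haveI := H207.isDedekindDomain_tensor_chart₀ hC K
  haveI := H207.isDomain_tensor_chart₀₁ hC K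
  haveI := away₀ hC K
  exact IsLocalization.isDedekindDomain (K ⊗[k] B₀) (powers_le₀ hC K) (K ⊗[k] B₀₁)

theorem finiteType₀₁ : Algebra.FiniteType K (K ⊗[k] B₀₁) := by
  haveI := hC.away₀
  haveI := H207.finiteType_chart₀ hC
  haveI : Algebra.FiniteType B₀ B₀₁ :=
    IsLocalization.finiteType_of_monoid_fg (Submonoid.powers x) B₀₁
  haveI : Algebra.FiniteType k B₀₁ := Algebra.FiniteType.trans (S := B₀) inferInstance inferInstance
  infer_instance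

theorem injective₀ : Function.Injective (algebraMap (K ⊗[k] B₀) (K ⊗[k] B₀₁)) :=
  H747.algebraMap_tensor_injective K B₀ B₀₁ (H747.chart_injective₀ hC)

theorem injective₁ : Function.Injective (algebraMap (K ⊗[k] B₁) (K ⊗[k] B₀₁)) :=
  H747.algebraMap_tensor_injective K B₁ B₀₁ (H747.chart_injective₁ hC)

end Rings

/-! ### The ideals of the marked point -/

section Eps

variable [IsAlgClosed k] {x : B₀} {y : B₁} {e : B₁ →ₐ[k] k}
  (hC : IsCurveChart k B₀ B₁ B₀₁ x y e) (K : Type u) [Field K] [Algebra k K]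

/-- The maximal ideal of the marked point on `Spec (K ⊗ B₁)`. -/
abbrev epsIdeal (e : B₁ →ₐ[k] k) (K : Type u) [Field K] [Algebra k K] : Ideal (K ⊗[k] B₁) :=
  H747.graphIdeal ((Algebra.ofId k K).comp e)

theorem ptI₁_epsPt' (e : B₁ →ₐ[k] k) (K : Type u) [Field K] [Algebra k K] :
    H747.ptI₁ B₀₁ (H747.epsPt B₀ e K) = epsIdeal e K := rfl

theorem tupI₁_eps (e : B₁ →ₐ[k] k) (K : Type u) [Field K] [Algebra k K] (g : ℕ) :
    H747.tupI₁ B₀₁ (fun _ : Fin g => H747.epsPt B₀ e K) = epsIdeal e K ^ g := by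
  unfold H747.tupI₁
  simp only [ptI₁_epsPt', Finset.prod_const, Finset.card_univ, Fintype.card_fin]

theorem epsIdeal_isMaximal (e : B₁ →ₐ[k] k) (K : Type u) [Field K] [Algebra k K] :
    (epsIdeal (B₁ := B₁) e K).IsMaximal :=
  RingHom.ker_isMaximal_of_surjective _ (H747.evalHom_surjective _)

include hC

theorem one_tmul_y_mem : (1 : K) ⊗ₜ[k] y ∈ epsIdeal (B₁ := B₁) e K := by
  show H747.evalHom _ _ = 0
  rw [H747.evalHom_tmul]
  simp [hC.e_y]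

theorem ptI₀₁_epsPt : H747.ptI₀₁ B₀₁ (H747.epsPt B₀ e K) = ⊤ := by
  apply Ideal.eq_top_of_isUnit_mem _ (Ideal.mem_map_of_mem _ (one_tmul_y_mem hC K))
  exact IsUnit.of_mul_eq_one _ (H747.chart_mul_eq_one' hC K)

theorem ptI₀_epsPt : H747.ptI₀ B₀₁ (H747.epsPt B₀ e K) = ⊤ := by
  show Ideal.comap _ (H747.ptI₀₁ B₀₁ (H747.epsPt B₀ e K)) = ⊤
  rw [ptI₀₁_epsPt hC K, Ideal.comap_top]

theorem tupI₀_eps (g : ℕ) : H747.tupI₀ B₀₁ (fun _ : Fin g => H747.epsPt B₀ e K) = ⊤ := by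
  unfold H747.tupI₀
  simp only [ptI₀_epsPt hC K, Finset.prod_const, Ideal.top_pow]

theorem tupI₀₁_eps (g : ℕ) : H747.tupI₀₁ B₀₁ (fun _ : Fin g => H747.epsPt B₀ e K) = ⊤ := by
  unfold H747.tupI₀₁
  simp only [ptI₀₁_epsPt hC K, Finset.prod_const, Ideal.top_pow]

theorem epsIdeal_ne_bot : epsIdeal (B₁ := B₁) e K ≠ ⊥ := by
  haveI := H207.isDedekindDomain_tensor_chart₁ hC K
  exact Ring.ne_bot_of_isMaximal_of_not_isField (epsIdeal_isMaximal (B₁ := B₁) e K)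
    (H207.not_isField_tensor_chart₁ hC K)

theorem finrank_quotient_epsIdeal_pow [IsAlgClosed K] (g : ℕ) :
    Module.Finite K ((K ⊗[k] B₁) ⧸ epsIdeal e K ^ g) ∧
      finrank K ((K ⊗[k] B₁) ⧸ epsIdeal e K ^ g) = g := by
  haveI := H207.isDedekindDomain_tensor_chart₁ hC K
  haveI := H207.finiteType_chart₁ hC
  haveI := epsIdeal_isMaximal (B₁ := B₁) e K
  induction g with
  | zero =>
    rw [pow_zero, Ideal.one_eq_top]
    exact ⟨inferInstance, Pts.finrank_quotient_top⟩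
  | succ n ih =>
    have hne : epsIdeal (B₁ := B₁) e K ^ n ≠ ⊥ := pow_ne_zero n (epsIdeal_ne_bot hC K)
    rw [pow_succ']
    refine ⟨Pts.finite_quotient_of_ne_bot _ (mul_ne_zero (epsIdeal_ne_bot hC K) hne), ?_⟩
    rw [Pts.finrank_quotient_mul _ _ hne, ih.2]

end Eps

/-! ### Euler characteristics -/

section Euler

variable [IsAlgClosed k] {x : B₀} {y : B₁} {e : B₁ →ₐ[k] k}
  (hC : IsCurveChart k B₀ B₁ B₀₁ x y e) (hD : HypEulerInj k B₀ B₁ B₀₁)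
  {K : Type u} [Field K] [Algebra k K]

/-- The number of points (with multiplicity) of an ideal triple. -/
def chartCount (I₀ : Ideal (K ⊗[k] B₀)) (I₁ : Ideal (K ⊗[k] B₁)) (I₀₁ : Ideal (K ⊗[k] B₀₁)) :
    ℤ :=
  finrank K ((K ⊗[k] B₀) ⧸ I₀) + finrank K ((K ⊗[k] B₁) ⧸ I₁)
    - finrank K ((K ⊗[k] B₀₁) ⧸ I₀₁)

omit [IsAlgClosed k] [IsScalarTower k B₀ B₀₁] [IsScalarTower k B₁ B₀₁] [Algebra B₁ B₀₁]
  [Algebra B₀ B₀₁] in
theorem ideal_smul_top {R : Type*} [CommRing R] (I : Ideal R) :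
    I = I • (⊤ : Submodule R R) := by
  rw [smul_eq_mul, Ideal.mul_top]

include hC hD

/-- `χ(ℋom(O(-D), G)) = χ(G) + deg D`. -/
theorem euler_homDatum_ofIdeals {I₀ : Ideal (K ⊗[k] B₀)} {I₁ : Ideal (K ⊗[k] B₁)}
    {I₀₁ : Ideal (K ⊗[k] B₀₁)} (hI : H747.IsCartierTriple I₀ I₁ I₀₁)
    [Module.Finite K ((K ⊗[k] B₀) ⧸ I₀)] [Module.Finite K ((K ⊗[k] B₁) ⧸ I₁)]
    [Module.Finite K ((K ⊗[k] B₀₁) ⧸ I₀₁)] (G : CurveGD k B₀ B₁ B₀₁ K) :
    (H747.homDatum (H747.ofIdeals K hI) G).euler = G.euler + chartCount I₀ I₁ I₀₁ := by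
  haveI := H207.isDedekindDomain_tensor_chart₀ hC K
  haveI := H207.isDedekindDomain_tensor_chart₁ hC K
  haveI := (H747.homDatum (H747.ofIdeals K hI) G).invertible₀
  haveI := (H747.homDatum (H747.ofIdeals K hI) G).invertible₁
  haveI := invertible_N₀₁ (H747.homDatum (H747.ofIdeals K hI) G)
  have h := hD hC (smulHom hI G) (smulHom_injective hI G)
    (finite_quotient_of_eq (K := K) I₀ _ _ (range_smulHom_f₀ hI G))
    (finite_quotient_of_eq (K := K) I₁ _ _ (range_smulHom_f₁ hI G))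
  rw [finrank_quotient_of_eq (K := K) I₀ _ _ (range_smulHom_f₀ hI G),
    finrank_quotient_of_eq (K := K) I₁ _ _ (range_smulHom_f₁ hI G),
    finrank_quotient_of_eq (K := K) I₀₁ _ _ (range_smulHom_f₀₁ hI G)] at h
  rw [h, chartCount]
  ring

/-- `χ(O) = χ(O(-D)) + deg D`. -/
theorem euler_unit_ofIdeals {I₀ : Ideal (K ⊗[k] B₀)} {I₁ : Ideal (K ⊗[k] B₁)}
    {I₀₁ : Ideal (K ⊗[k] B₀₁)} (hI : H747.IsCartierTriple I₀ I₁ I₀₁)
    [Module.Finite K ((K ⊗[k] B₀) ⧸ I₀)] [Module.Finite K ((K ⊗[k] B₁) ⧸ I₁)]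
    [Module.Finite K ((K ⊗[k] B₀₁) ⧸ I₀₁)] :
    (GlueDatum.unit K (K ⊗[k] B₀) (K ⊗[k] B₁) (K ⊗[k] B₀₁)).euler =
      (H747.ofIdeals K hI).euler + chartCount I₀ I₁ I₀₁ := by
  have e₀ : LinearMap.range (inclHom (A := K) hI).f₀ = I₀ • ⊤ :=
    (range_inclHom_f₀ hI).trans (ideal_smul_top I₀)
  have e₁ : LinearMap.range (inclHom (A := K) hI).f₁ = I₁ • ⊤ :=
    (range_inclHom_f₁ hI).trans (ideal_smul_top I₁)
  have e₀₁ : LinearMap.range (inclHom (A := K) hI).f₀₁ = I₀₁ • ⊤ :=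
    (range_inclHom_f₀₁ hI).trans (ideal_smul_top I₀₁)
  haveI := (GlueDatum.unit K (K ⊗[k] B₀) (K ⊗[k] B₁) (K ⊗[k] B₀₁)).invertible₀
  haveI := (GlueDatum.unit K (K ⊗[k] B₀) (K ⊗[k] B₁) (K ⊗[k] B₀₁)).invertible₁
  haveI := invertible_N₀₁ (GlueDatum.unit K (K ⊗[k] B₀) (K ⊗[k] B₁) (K ⊗[k] B₀₁))
  have h := hD hC (inclHom (A := K) hI) (inclHom_injective hI)
    (finite_quotient_of_eq (K := K) I₀ _ _ e₀)
    (finite_quotient_of_eq (K := K) I₁ _ _ e₁)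
  rw [finrank_quotient_of_eq (K := K) I₀ _ _ e₀,
    finrank_quotient_of_eq (K := K) I₁ _ _ e₁,
    finrank_quotient_of_eq (K := K) I₀₁ _ _ e₀₁] at h
  rw [h, chartCount]
  ring

/-- `χ(G) = χ(E) + deg (div s)` for an injective morphism `s : E → G`. -/
theorem euler_of_div {E G : CurveGD k B₀ B₁ B₀₁ K} (s : H10.GDHom E G)
    (hs : s.Injective)
    [Module.Finite K ((K ⊗[k] B₀) ⧸ (LinearMap.range (divC₀ s) : Ideal (K ⊗[k] B₀)))]
    [Module.Finite K ((K ⊗[k] B₁) ⧸ (LinearMap.range (divC₁ s) : Ideal (K ⊗[k] B₁)))]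
    [Module.Finite K ((K ⊗[k] B₀₁) ⧸ (LinearMap.range (divC₀₁ s) : Ideal (K ⊗[k] B₀₁)))] :
    G.euler = E.euler + chartCount (LinearMap.range (divC₀ s) : Ideal (K ⊗[k] B₀))
      (LinearMap.range (divC₁ s) : Ideal (K ⊗[k] B₁))
      (LinearMap.range (divC₀₁ s) : Ideal (K ⊗[k] B₀₁)) := by
  haveI := H207.isDedekindDomain_tensor_chart₀ hC K
  haveI := H207.isDedekindDomain_tensor_chart₁ hC K
  haveI := H207.isDomain_tensor_chart₀₁ hC K
  haveI := G.invertible₀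
  haveI := G.invertible₁
  haveI := invertible_N₀₁ G
  have h := hD hC s hs
    (finite_quotient_of_eq (K := K) _ _ _ (range_f₀_eq s))
    (finite_quotient_of_eq (K := K) _ _ _ (range_f₁_eq s))
  rw [finrank_quotient_of_eq (K := K) _ _ _ (range_f₀_eq s),
    finrank_quotient_of_eq (K := K) _ _ _ (range_f₁_eq s),
    finrank_quotient_of_eq (K := K) _ _ _ (range_f₀₁_eq s)] at h
  rw [h, chartCount]
  ring

end Euler

/-! ### The main theorem -/

section Main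

variable [IsAlgClosed k]

/-- **AA6** (`H747.StmtAA6`) from the DEGREE leaves D3-a, D6-a, D6-b: over an algebraically
closed field every gluing datum of degree `0` is isomorphic to `O(Σ Pᵢ - g ε)` for a `g`-tuple
of chart points. -/
theorem stmtAA6_of (hD : HypEulerInj k B₀ B₁ B₀₁) (hH0 : HypH0Unit k B₀ B₁ B₀₁)
    (hH1 : HypH1Unit k B₀ B₁ B₀₁) : H747.StmtAA6 k B₀ B₁ B₀₁ := by
  intro x y e hC K _ _ _ G hG
  haveI := H207.isDedekindDomain_tensor_chart₀ hC K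
  haveI := H207.isDedekindDomain_tensor_chart₁ hC K
  haveI := dedekind₀₁ hC K
  haveI := finiteType₀₁ hC K
  haveI := H207.finiteType_chart₀ hC
  haveI := H207.finiteType_chart₁ hC
  haveI := away₀ hC K
  haveI := away₁ hC K
  obtain ⟨g, hg⟩ : ∃ g : ℕ, g = H747.genus k B₀ B₁ B₀₁ := ⟨_, rfl⟩
  rw [← hg]
  -- the datum `O(-g ε)`
  have hε := H747.tupCartier hC K (fun _ : Fin g => H747.epsPt B₀ e K)
  have c₀ := tupI₀_eps hC K g
  have c₀₁ := tupI₀₁_eps hC K g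
  have c₁ := tupI₁_eps (B₀ := B₀) (B₀₁ := B₀₁) e K g
  obtain ⟨fε, cε⟩ := finrank_quotient_epsIdeal_pow hC K g
  haveI : Module.Finite K ((K ⊗[k] B₀) ⧸
      H747.tupI₀ B₀₁ (fun _ : Fin g => H747.epsPt B₀ e K)) := by rw [c₀]; infer_instance
  haveI : Module.Finite K ((K ⊗[k] B₀₁) ⧸
      H747.tupI₀₁ B₀₁ (fun _ : Fin g => H747.epsPt B₀ e K)) := by rw [c₀₁]; infer_instance
  haveI : Module.Finite K ((K ⊗[k] B₁) ⧸
      H747.tupI₁ B₀₁ (fun _ : Fin g => H747.epsPt B₀ e K)) := by rw [c₁]; exact fε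
  have hcε : chartCount (H747.tupI₀ B₀₁ (fun _ : Fin g => H747.epsPt B₀ e K))
      (H747.tupI₁ B₀₁ (fun _ : Fin g => H747.epsPt B₀ e K))
      (H747.tupI₀₁ B₀₁ (fun _ : Fin g => H747.epsPt B₀ e K)) = g := by
    unfold chartCount
    rw [Pts.finrank_quotient_congr (K := K) c₀, Pts.finrank_quotient_congr (K := K) c₀₁,
      Pts.finrank_quotient_congr (K := K) c₁, Pts.finrank_quotient_top,
      Pts.finrank_quotient_top, cε]
    simp
  -- Euler characteristics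
  have hdeg : G.degree = 0 := hG K (AlgHom.id k K) G (H265.curveGD_isBC_id G)
  have hU : (GlueDatum.unit K (K ⊗[k] B₀) (K ⊗[k] B₁) (K ⊗[k] B₀₁)).euler = 1 - g := by
    unfold GlueDatum.euler
    rw [hH0 hC K, hH1 hC K, hg]
    rfl
  have hGe : G.euler = 1 - g := by
    unfold GlueDatum.degree at hdeg
    rw [hU] at hdeg
    linarith
  have h1 := euler_homDatum_ofIdeals hC hD hε G
  rw [hcε, hGe] at h1
  -- a nonzero section of `G(g ε)`
  have hne : (H747.homDatum (H747.ofIdeals K hε) G).H0 ≠ ⊥ := by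
    intro hbot
    unfold GlueDatum.euler at h1
    rw [hbot, finrank_bot] at h1
    have : (0 : ℤ) ≤ (finrank K (H747.homDatum (H747.ofIdeals K hε) G).H1 : ℤ) :=
      Int.natCast_nonneg _
    push_cast at h1
    linarith
  obtain ⟨s, hs⟩ := exists_gdHom_of_H0_ne_bot _ G hne
  obtain ⟨i₀, i₁, i₀₁⟩ := injective_of_ne_zero_chart s (injective₀ hC K) (injective₁ hC K) hs
  -- its divisor
  have hI := divCartier s i₀ i₁ i₀₁
  have iso1 := isIso_homDatum_div s i₀ i₁ i₀₁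
  have n₀ := range_divC₀_ne_bot s i₀
  have n₁ := range_divC₁_ne_bot s i₁
  have n₀₁ : (LinearMap.range (divC₀₁ s) : Ideal (K ⊗[k] B₀₁)) ≠ ⊥ := by
    rw [← hI.map₀]
    intro h
    exact n₀ ((Ideal.map_eq_bot_iff_of_injective (injective₀ hC K)).mp h)
  haveI : Module.Finite K ((K ⊗[k] B₀) ⧸ (LinearMap.range (divC₀ s) : Ideal (K ⊗[k] B₀))) :=
    Pts.finite_quotient_of_ne_bot _ n₀
  haveI : Module.Finite K ((K ⊗[k] B₁) ⧸ (LinearMap.range (divC₁ s) : Ideal (K ⊗[k] B₁))) :=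
    Pts.finite_quotient_of_ne_bot _ n₁
  haveI : Module.Finite K ((K ⊗[k] B₀₁) ⧸
      (LinearMap.range (divC₀₁ s) : Ideal (K ⊗[k] B₀₁))) :=
    Pts.finite_quotient_of_ne_bot _ n₀₁
  have h2 := euler_of_div hC hD s ⟨i₀, i₁⟩
  have h3 := euler_unit_ofIdeals hC hD hε
  rw [hcε, hU] at h3
  rw [hGe] at h2
  have hn : chartCount (LinearMap.range (divC₀ s) : Ideal (K ⊗[k] B₀))
      (LinearMap.range (divC₁ s) : Ideal (K ⊗[k] B₁))
      (LinearMap.range (divC₀₁ s) : Ideal (K ⊗[k] B₀₁)) = g := by linarith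
  -- the points of the divisor
  obtain ⟨n, P, e0, e1, en⟩ := Pts.exists_points_of_compatible (K := K) (K ⊗[k] B₀₁)
    ((1 : K) ⊗ₜ[k] x) ((1 : K) ⊗ₜ[k] y) (one_tmul_x_ne_zero hC K)
    (LinearMap.range (divC₀ s) : Ideal (K ⊗[k] B₀))
    (LinearMap.range (divC₁ s) : Ideal (K ⊗[k] B₁)) n₀ n₁ (hI.map₀.trans hI.map₁.symm)
  have hng : n = g := by
    rw [Pts.finrank_quotient_congr (K := K) hI.map₀] at en
    unfold chartCount at hn
    have : (n : ℤ) = g := en.trans hn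
    exact_mod_cast this
  subst hng
  have hQ := H747.tupCartier hC K (fun i : Fin n => chartPtOf (P i))
  have q₀ : H747.tupI₀ B₀₁ (fun i : Fin n => chartPtOf (P i)) =
      (LinearMap.range (divC₀ s) : Ideal (K ⊗[k] B₀)) := by
    unfold H747.tupI₀
    simp only [ptI₀_chartPtOf]
    exact e0.symm
  have q₁ : H747.tupI₁ B₀₁ (fun i : Fin n => chartPtOf (P i)) =
      (LinearMap.range (divC₁ s) : Ideal (K ⊗[k] B₁)) := by
    unfold H747.tupI₁
    simp only [ptI₁_chartPtOf]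
    exact e1.symm
  have q₀₁ : H747.tupI₀₁ B₀₁ (fun i : Fin n => chartPtOf (P i)) =
      (LinearMap.range (divC₀₁ s) : Ideal (K ⊗[k] B₀₁)) := by
    rw [← hQ.map₀, q₀, hI.map₀]
  refine ⟨fun i : Fin n => chartPtOf (P i), ?_⟩
  rw [H747.abelDatum_eq_homDatum hC, ofIdeals_congr hQ hI q₀ q₁ q₀₁]
  exact iso1

end Main

end

end Fermat.Agent.S25.H206
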