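/-
S25 / block ABEL / AB-ALG leaf AA6 (helper206): `H747.StmtAA6`, unconditional.
Plugs the DEGREE leaves on main (D3-a: `H565.D.euler_eq_of_injective`, D6-a/b:
`H910.finrank_H0_unit`, `H910.finrank_H1_unit`) into `stmtAA6_of`, and assembles
`H746.Stmt.AlgAbel` from a proof of AA2.
-/
import Fermat.Agent.S25.H206.SurjMain
import Fermat.Agent.S25.H565.DegreeD3
import Fermat.Agent.S25.H910.UnitDegree

set_option autoImplicit false

universe u

open scoped TensorProduct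

namespace Fermat.Agent.S25.H206

open Fermat.Agent.S25

variable {k : Type u} [Field k] [IsAlgClosed k]
  {B₀ B₁ B₀₁ : Type u} [CommRing B₀] [CommRing B₁] [CommRing B₀₁]
  [Algebra k B₀] [Algebra k B₁] [Algebra k B₀₁] [Algebra B₀ B₀₁] [Algebra B₁ B₀₁]
  [IsScalarTower k B₀ B₀₁] [IsScalarTower k B₁ B₀₁]

omit [IsAlgClosed k] in
theorem hypEulerInj : HypEulerInj k B₀ B₁ B₀₁ :=
  fun hC _ _ _ _ _ f hf h₀ h₁ => H565.D.euler_eq_of_injective hC f hf h₀ h₁

theorem hypH0Unit : HypH0Unit k B₀ B₁ B₀₁ :=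
  fun hC K _ _ => H910.finrank_H0_unit hC K

omit [IsAlgClosed k] in
theorem hypH1Unit : HypH1Unit k B₀ B₁ B₀₁ :=
  fun hC K _ _ => H910.finrank_H1_unit hC K

variable (k B₀ B₁ B₀₁) in
/-- **AA6** (`abelDatum_surj`, exact `H747` skeleton statement as a Prop): over an
algebraically closed field every gluing datum of degree `0` is in the algebraic Abel family. -/
theorem stmtAA6 : H747.StmtAA6 k B₀ B₁ B₀₁ :=
  stmtAA6_of hypEulerInj hypH0Unit hypH1Unit

/-- **AA6**, in the form of the skeleton theorem `abelDatum_surj`. -/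
theorem abelDatum_surj {x : B₀} {y : B₁} {e : B₁ →ₐ[k] k}
    (hC : IsCurveChart k B₀ B₁ B₀₁ x y e)
    (K : Type u) [Field K] [IsAlgClosed K] [Algebra k K] (G : CurveGD k B₀ B₁ B₀₁ K)
    (hG : G.Deg0) :
    ∃ P : Fin (H747.genus k B₀ B₁ B₀₁) → H746.ChartPt k B₀ B₁ K,
      G.IsIso (H747.abelDatum (B₀₁ := B₀₁) e (H747.genus k B₀ B₁ B₀₁) K P) :=
  stmtAA6 k B₀ B₁ B₀₁ x y e hC K G hG

end Fermat.Agent.S25.H206
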