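import Mathlib
import Fermat.Prelude.Def_AlgebraicGeometry_RelativePicardFunctor
import Fermat.Prelude.Def_AlgebraicGeometry_RepresentsRelSubPic
import Fermat.Prelude.Def_AlgebraicGeometry_RelPicardAlgEquivZeroCut

/-!
# S25 / route piece B6-FORMAL (b): a family with a trivial fibre is fibrewise algebraically
equivalent to zero

Let `x : X ⟶ Spec k` be locally of finite type and geometrically integral, `M` a rigidified line
bundle on `C ×ₖ X` and `t₀` a `k`-point of `X` over which `M` is trivial.  Then every geometric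
fibre of `M` is algebraically equivalent to zero in the Prelude's sense
(`FibrewiseAlgEquivZero M`): the connecting family is the base change of `M` itself.

Prelude-only (no row definitions are used).
-/

set_option autoImplicit false

universe u

open CategoryTheory CategoryTheory.Limits AlgebraicGeometry AlgebraicGeometry.RelPicard
  NeronModelInfra

namespace Fermat.Agent.S25.H206

noncomputable section

/-- Pullback of modules along the two sides of a commutative square. -/
def pullbackSquareIso {W X Y Z : Scheme.{u}} {f : W ⟶ X} {g : X ⟶ Z} {f' : W ⟶ Y} {g' : Y ⟶ Z}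
    (h : f ≫ g = f' ≫ g') (M : Z.Modules) :
    (Scheme.Modules.pullback f).obj ((Scheme.Modules.pullback g).obj M) ≅
      (Scheme.Modules.pullback f').obj ((Scheme.Modules.pullback g').obj M) :=
  (Scheme.Modules.pullbackComp f g).app M ≪≫ (Scheme.Modules.pullbackCongr h).app M ≪≫
    ((Scheme.Modules.pullbackComp f' g').app M).symm

/-- Pullback of modules along a factorization. -/
def pullbackFactorIso {W X Z : Scheme.{u}} {f : W ⟶ X} {g : X ⟶ Z} {k : W ⟶ Z}
    (h : f ≫ g = k) (M : Z.Modules) :
    (Scheme.Modules.pullback f).obj ((Scheme.Modules.pullback g).obj M) ≅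
      (Scheme.Modules.pullback k).obj M :=
  (Scheme.Modules.pullbackComp f g).app M ≪≫ (Scheme.Modules.pullbackCongr h).app M

section BaseChangeSnd

variable {R : Type u} [CommRing R] {C T T' : Scheme.{u}} (c : C ⟶ Spec (CommRingCat.of R))
  {t : T ⟶ Spec (CommRingCat.of R)} {t' : T' ⟶ Spec (CommRingCat.of R)}

@[reassoc]
theorem baseChangeSnd_fst (ψ : SchemeHomOver t' t) :
    baseChangeSnd c ψ ≫ pullback.fst c t = pullback.fst c t' := by
  unfold baseChangeSnd
  rw [pullback.lift_fst]
  exact Category.comp_id _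

@[reassoc]
theorem baseChangeSnd_snd (ψ : SchemeHomOver t' t) :
    baseChangeSnd c ψ ≫ pullback.snd c t = pullback.snd c t' ≫ ψ.1 := by
  unfold baseChangeSnd
  rw [pullback.lift_snd]

end BaseChangeSnd

variable {k : Type u} [Field k] {C : Scheme.{u}} {c : C ⟶ Spec (CommRingCat.of k)}
  {ε : SchemeHomOver (𝟙 (Spec (CommRingCat.of k))) c}

/-- **B6-FORMAL (b), module form.** Let `x : X ⟶ Spec k` be locally of finite type and
geometrically integral, `L` an invertible module on `C ×ₖ X` whose restriction to the fibre over a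
`k`-point `t₀` is trivial.  Then for every field `K` and every `K`-point `s` of `X` the fibre of
`L` over `s` is algebraically equivalent to zero. -/
theorem isAlgEquivZero_fibre_of_trivial_fibre
    {X : Scheme.{u}} (x : X ⟶ Spec (CommRingCat.of k))
    [LocallyOfFiniteType x] [GeometricallyIntegral x]
    (L : (pullback c x).Modules) (hL : Scheme.Modules.IsInvertible L)
    (t₀ : SchemeHomOver (𝟙 (Spec (CommRingCat.of k))) x)
    (h₀ : Nonempty ((Scheme.Modules.pullback (baseChangeSnd c t₀)).obj L ≅
      SheafOfModules.unit (pullback c (𝟙 (Spec (CommRingCat.of k)))).ringCatSheaf))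
    (K : Type u) [Field K] (s : Spec (CommRingCat.of K) ⟶ X) :
    IsAlgEquivZero (fibreAt c x s)
      ((Scheme.Modules.pullback (pullback.fst (pullback.snd c x) s)).obj L) := by
  obtain ⟨e₀⟩ := h₀
  -- notation
  let a : pullback (pullback.snd c x) s ⟶ Spec (CommRingCat.of K) := fibreAt c x s
  have ha : pullback.fst (pullback.snd c x) s ≫ pullback.snd c x = a ≫ s := pullback.condition
  let κ : Spec (CommRingCat.of K) ⟶ Spec (CommRingCat.of k) := s ≫ x
  let h : pullback x κ ⟶ Spec (CommRingCat.of K) := pullback.snd x κ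
  have hah : pullback.fst a h ≫ a = pullback.snd a h ≫ h := pullback.condition
  have ha1 : pullback.fst a (𝟙 (Spec (CommRingCat.of K))) ≫ a = pullback.snd a (𝟙 _) :=
    pullback.condition.trans (Category.comp_id _)
  have hxκ : pullback.fst x κ ≫ x = h ≫ κ := pullback.condition
  have hcompat : (pullback.fst a h ≫ pullback.fst (pullback.snd c x) s ≫ pullback.fst c x) ≫ c =
      (pullback.snd a h ≫ pullback.fst x κ) ≫ x := by
    simp only [Category.assoc]
    rw [pullback.condition (f := c) (g := x), reassoc_of% ha, reassoc_of% hah, hxκ]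
  let Φ : pullback a h ⟶ pullback c x :=
    pullback.lift (pullback.fst a h ≫ pullback.fst (pullback.snd c x) s ≫ pullback.fst c x)
      (pullback.snd a h ≫ pullback.fst x κ) hcompat
  have hΦ1 : Φ ≫ pullback.fst c x =
      pullback.fst a h ≫ pullback.fst (pullback.snd c x) s ≫ pullback.fst c x :=
    pullback.lift_fst _ _ _
  have hΦ2 : Φ ≫ pullback.snd c x = pullback.snd a h ≫ pullback.fst x κ :=
    pullback.lift_snd _ _ _
  -- the two points
  let t₁ : SchemeHomOver (𝟙 (Spec (CommRingCat.of K))) h :=
    ⟨pullback.lift s (𝟙 _) (Category.id_comp _).symm, pullback.lift_snd _ _ _⟩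
  have ht₁ : t₁.1 ≫ pullback.fst x κ = s := pullback.lift_fst _ _ _
  let t₀' : SchemeHomOver (𝟙 (Spec (CommRingCat.of K))) h :=
    ⟨pullback.lift (κ ≫ t₀.1) (𝟙 _)
      (by rw [Category.assoc, t₀.2, Category.comp_id, Category.id_comp]), pullback.lift_snd _ _ _⟩
  have ht₀' : t₀'.1 ≫ pullback.fst x κ = κ ≫ t₀.1 := pullback.lift_fst _ _ _
  refine ⟨pullback x κ, h, inferInstance, inferInstance, (Scheme.Modules.pullback Φ).obj L,
    hL.pullback Φ, t₀', t₁, ⟨?_⟩, ⟨?_⟩⟩
  · -- the fibre over `t₀'` is trivial
    have hΨ : (pullback.fst a (𝟙 (Spec (CommRingCat.of K))) ≫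
        pullback.fst (pullback.snd c x) s ≫ pullback.fst c x) ≫ c =
        (pullback.snd a (𝟙 (Spec (CommRingCat.of K))) ≫ κ) ≫ 𝟙 _ := by
      simp only [Category.assoc, Category.comp_id]
      rw [pullback.condition (f := c) (g := x), reassoc_of% ha, reassoc_of% ha1]
    let Ψ : pullback a (𝟙 (Spec (CommRingCat.of K))) ⟶ pullback c (𝟙 (Spec (CommRingCat.of k))) :=
      pullback.lift (pullback.fst a (𝟙 _) ≫ pullback.fst (pullback.snd c x) s ≫ pullback.fst c x)
        (pullback.snd a (𝟙 _) ≫ κ) hΨ
    have hΨ1 : Ψ ≫ pullback.fst c (𝟙 _) =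
        pullback.fst a (𝟙 _) ≫ pullback.fst (pullback.snd c x) s ≫ pullback.fst c x :=
      pullback.lift_fst _ _ _
    have hΨ2 : Ψ ≫ pullback.snd c (𝟙 _) = pullback.snd a (𝟙 _) ≫ κ := pullback.lift_snd _ _ _
    have hsq : baseChangeSnd a t₀' ≫ Φ = Ψ ≫ baseChangeSnd c t₀ := by
      apply pullback.hom_ext
      · have hl : (baseChangeSnd a t₀' ≫ Φ) ≫ pullback.fst c x =
            pullback.fst a (𝟙 _) ≫ pullback.fst (pullback.snd c x) s ≫ pullback.fst c x := by
          rw [Category.assoc, hΦ1, baseChangeSnd_fst_assoc]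
        have hr : (Ψ ≫ baseChangeSnd c t₀) ≫ pullback.fst c x =
            pullback.fst a (𝟙 _) ≫ pullback.fst (pullback.snd c x) s ≫ pullback.fst c x := by
          rw [Category.assoc, baseChangeSnd_fst, hΨ1]
        exact hl.trans hr.symm
      · have hl : (baseChangeSnd a t₀' ≫ Φ) ≫ pullback.snd c x =
            pullback.snd a (𝟙 _) ≫ κ ≫ t₀.1 := by
          rw [Category.assoc, hΦ2, baseChangeSnd_snd_assoc, ht₀']
        have hr : (Ψ ≫ baseChangeSnd c t₀) ≫ pullback.snd c x =
            pullback.snd a (𝟙 _) ≫ κ ≫ t₀.1 := by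
          rw [Category.assoc, baseChangeSnd_snd, reassoc_of% hΨ2]
        exact hl.trans hr.symm
    exact pullbackSquareIso hsq L ≪≫ (Scheme.Modules.pullback Ψ).mapIso e₀ ≪≫
      Scheme.Modules.pullbackUnitIso Ψ
  · -- the fibre over `t₁` is the given fibre
    have hsq : baseChangeSnd a t₁ ≫ Φ =
        pullback.fst a (𝟙 (Spec (CommRingCat.of K))) ≫ pullback.fst (pullback.snd c x) s := by
      apply pullback.hom_ext
      · have hl : (baseChangeSnd a t₁ ≫ Φ) ≫ pullback.fst c x =
            pullback.fst a (𝟙 _) ≫ pullback.fst (pullback.snd c x) s ≫ pullback.fst c x := by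
          rw [Category.assoc, hΦ1, baseChangeSnd_fst_assoc]
        exact hl.trans (Category.assoc _ _ _).symm
      · have hl : (baseChangeSnd a t₁ ≫ Φ) ≫ pullback.snd c x = pullback.snd a (𝟙 _) ≫ s := by
          rw [Category.assoc, hΦ2, baseChangeSnd_snd_assoc, ht₁]
        have hr : (pullback.fst a (𝟙 (Spec (CommRingCat.of K))) ≫
            pullback.fst (pullback.snd c x) s) ≫ pullback.snd c x = pullback.snd a (𝟙 _) ≫ s := by
          rw [Category.assoc, ha, reassoc_of% ha1]
        exact hl.trans hr.symm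
    exact pullbackSquareIso hsq L

/-- **B6-FORMAL (b).** Let `x : X ⟶ Spec k` be locally of finite type and geometrically
integral, `M` a rigidified line bundle over `X` and `t₀` a `k`-point of `X` such that the fibre of
`M` over `t₀` is trivial.  Then `M` is fibrewise algebraically equivalent to zero. -/
theorem fibrewiseAlgEquivZero_of_trivial_fibre
    {X : Scheme.{u}} (x : X ⟶ Spec (CommRingCat.of k))
    [LocallyOfFiniteType x] [GeometricallyIntegral x]
    (M : RigidifiedLineBundle c ε x)
    (t₀ : SchemeHomOver (𝟙 (Spec (CommRingCat.of k))) x)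
    (h₀ : Nonempty ((M.pullbackAlong t₀).L ≅
      (RigidifiedLineBundle.unit (c := c) (ε := ε) (𝟙 (Spec (CommRingCat.of k)))).L)) :
    FibrewiseAlgEquivZero M := fun K _ _ s =>
  isAlgEquivZero_fibre_of_trivial_fibre x M.L M.isInvertible t₀ h₀ K s

end

end Fermat.Agent.S25.H206
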