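import Mathlib
import Fermat.Prelude.Def_AlgebraicGeometry_RelativePicardFunctor
import Fermat.Prelude.Def_AlgebraicGeometry_RepresentsRelSubPic
import Fermat.Prelude.Def_AlgebraicGeometry_RelPicardAlgEquivZeroCut
import Fermat.Agent.S25.H206.FamilyAlgEquivZero

/-!
# S25 / route piece B6-FORMAL (a): the constancy principle

An invariant `d` of rigidified line bundles over fields which is
* invariant under isomorphism,
* locally constant in families (over an arbitrary base `T`),
takes the same value on every geometric fibre of a bundle `M` with `FibrewiseAlgEquivZero M`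
as on the trivial bundle.  (Intended use: `d` = degree, computed by Čech cohomology.)

Prelude-only.
-/

set_option autoImplicit false

universe u

open CategoryTheory CategoryTheory.Limits AlgebraicGeometry AlgebraicGeometry.RelPicard
  NeronModelInfra

namespace Fermat.Agent.S25.H206

noncomputable section

/-- If the pullback of `E` along an isomorphism is trivial, then `E` is trivial. -/
def isoUnitOfPullbackIso {X Y : Scheme.{u}} (e : X ≅ Y) (E : Y.Modules)
    (t : (Scheme.Modules.pullback e.hom).obj E ≅ SheafOfModules.unit X.ringCatSheaf) :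
    E ≅ SheafOfModules.unit Y.ringCatSheaf :=
  ((Scheme.Modules.pullbackId Y).app E).symm ≪≫
    (pullbackFactorIso e.inv_hom_id E).symm ≪≫
    (Scheme.Modules.pullback e.inv).mapIso t ≪≫ Scheme.Modules.pullbackUnitIso e.inv

/-- An invertible module on the spectrum of a field is trivial. -/
theorem nonempty_iso_unit_of_field (K : Type u) [Field K]
    (E : (Spec (CommRingCat.of K)).Modules) (hE : Scheme.Modules.IsInvertible E) :
    Nonempty (E ≅ SheafOfModules.unit (Spec (CommRingCat.of K)).ringCatSheaf) := by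
  obtain ⟨U, hxU, ⟨t⟩⟩ := hE.1 default
  have hU : U = ⊤ := by
    ext y
    simp only [TopologicalSpace.Opens.coe_top, Set.mem_univ, iff_true]
    rw [Subsingleton.elim y default]
    exact hxU
  subst hU
  exact ⟨isoUnitOfPullbackIso (Scheme.topIso _) E t⟩

variable {k : Type u} [Field k] {C : Scheme.{u}} {c : C ⟶ Spec (CommRingCat.of k)}
  {ε : SchemeHomOver (𝟙 (Spec (CommRingCat.of k))) c}

/-- The rigidified line bundle over `T'` obtained by pulling back an invertible module `N` on
`C ×ₖ T` along `g : T' ⟶ T`, when the pullback of `N` along the rigidifying section becomes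
trivial on `T'`. -/
def bundleOfRig {T T' : Scheme.{u}} {τ : T ⟶ Spec (CommRingCat.of k)}
    {t' : T' ⟶ Spec (CommRingCat.of k)} (N : (pullback c τ).Modules)
    (hN : Scheme.Modules.IsInvertible N) (g : SchemeHomOver t' τ)
    (hg : Nonempty ((Scheme.Modules.pullback g.1).obj
      ((Scheme.Modules.pullback (rigSection c τ ε)).obj N) ≅
        SheafOfModules.unit T'.ringCatSheaf)) : RigidifiedLineBundle c ε t' where
  L := (Scheme.Modules.pullback (baseChangeSnd c g)).obj N
  isInvertible := hN.pullback _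
  rigidified := ⟨pullbackSquareIso (rigSection_baseChangeSnd c ε g) N ≪≫ hg.some⟩

/-- The fibre of an invertible module `N` on `C ×ₖ T` over a field-valued point of `T`, as a
rigidified line bundle. -/
def fibreBundle {T : Scheme.{u}} {τ : T ⟶ Spec (CommRingCat.of k)} (N : (pullback c τ).Modules)
    (hN : Scheme.Modules.IsInvertible N) {K : Type u} [Field K]
    {κ : Spec (CommRingCat.of K) ⟶ Spec (CommRingCat.of k)} (s : SchemeHomOver κ τ) :
    RigidifiedLineBundle c ε κ :=
  bundleOfRig N hN s (nonempty_iso_unit_of_field K _ ((hN.pullback _).pullback _))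

@[simp]
theorem fibreBundle_L {T : Scheme.{u}} {τ : T ⟶ Spec (CommRingCat.of k)}
    (N : (pullback c τ).Modules)
    (hN : Scheme.Modules.IsInvertible N) {K : Type u} [Field K]
    {κ : Spec (CommRingCat.of K) ⟶ Spec (CommRingCat.of k)} (s : SchemeHomOver κ τ) :
    (fibreBundle (ε := ε) N hN s).L = (Scheme.Modules.pullback (baseChangeSnd c s)).obj N := rfl

/-- The fibre of `bundleOfRig N g` over a point `s'` is the fibre of `N` over `g ∘ s'`. -/
def bundleOfRigPullbackIso {T T' : Scheme.{u}} {τ : T ⟶ Spec (CommRingCat.of k)}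
    {t' : T' ⟶ Spec (CommRingCat.of k)} (N : (pullback c τ).Modules)
    (hN : Scheme.Modules.IsInvertible N) (g : SchemeHomOver t' τ)
    (hg : Nonempty ((Scheme.Modules.pullback g.1).obj
      ((Scheme.Modules.pullback (rigSection c τ ε)).obj N) ≅
        SheafOfModules.unit T'.ringCatSheaf))
    {K : Type u} [Field K] {κ : Spec (CommRingCat.of K) ⟶ Spec (CommRingCat.of k)}
    (s' : SchemeHomOver κ t') (s : SchemeHomOver κ τ) (hs : s'.1 ≫ g.1 = s.1) :
    ((bundleOfRig (ε := ε) N hN g hg).pullbackAlong s').L ≅ (fibreBundle (ε := ε) N hN s).L :=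
  pullbackFactorIso (show baseChangeSnd c s' ≫ baseChangeSnd c g = baseChangeSnd c s by
    rw [baseChangeSnd_comp]
    congr 1
    exact Subtype.ext hs) N

section Principle

variable {D : Type*}
  (d : ∀ (K : Type u) [Field K] (κ : Spec (CommRingCat.of K) ⟶ Spec (CommRingCat.of k)),
    RigidifiedLineBundle c ε κ → D)

/-- The invariant `d` of rigidified line bundles over fields is invariant under isomorphism. -/
def InvariantIso : Prop :=
  ∀ (K : Type u) [Field K] (κ : Spec (CommRingCat.of K) ⟶ Spec (CommRingCat.of k))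
    (L L' : RigidifiedLineBundle c ε κ), Nonempty (L.L ≅ L'.L) → d K κ L = d K κ L'

/-- The invariant `d` is locally constant in families: every point `v` of the base `T` of a
rigidified line bundle `M` has an open neighbourhood `U` such that `d` takes the same value on
the fibres of `M` over all field-valued points of `T` landing in `U`. -/
def LocallyConstantInFamilies : Prop :=
  ∀ {T : Scheme.{u}} (t : T ⟶ Spec (CommRingCat.of k)) (M : RigidifiedLineBundle c ε t) (v : T),
    ∃ U : T.Opens, v ∈ U ∧
      ∀ (K : Type u) [Field K] (κ : Spec (CommRingCat.of K) ⟶ Spec (CommRingCat.of k))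
        (s : SchemeHomOver κ t) (K' : Type u) [Field K']
        (κ' : Spec (CommRingCat.of K') ⟶ Spec (CommRingCat.of k)) (s' : SchemeHomOver κ' t),
        Set.range s.1 ⊆ (U : Set T) → Set.range s'.1 ⊆ (U : Set T) →
          d K κ (M.pullbackAlong s) = d K' κ' (M.pullbackAlong s')

variable {d}

/-- Local constancy of the invariant along the fibres of an invertible module which is not
necessarily rigidified globally. -/
theorem exists_open_fibreBundle_const (hiso : InvariantIso d)
    (hloc : LocallyConstantInFamilies d)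
    {T : Scheme.{u}} {τ : T ⟶ Spec (CommRingCat.of k)} (N : (pullback c τ).Modules)
    (hN : Scheme.Modules.IsInvertible N) (v : T) :
    ∃ W : T.Opens, v ∈ W ∧
      ∀ (K : Type u) [Field K] (κ : Spec (CommRingCat.of K) ⟶ Spec (CommRingCat.of k))
        (s : SchemeHomOver κ τ) (K' : Type u) [Field K']
        (κ' : Spec (CommRingCat.of K') ⟶ Spec (CommRingCat.of k)) (s' : SchemeHomOver κ' τ),
        Set.range s.1 ⊆ (W : Set T) → Set.range s'.1 ⊆ (W : Set T) →
          d K κ (fibreBundle N hN s) = d K' κ' (fibreBundle N hN s') := by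
  obtain ⟨U, hvU, hU⟩ := (hN.pullback (rigSection c τ ε)).1 v
  let g : SchemeHomOver (U.ι ≫ τ) τ := ⟨U.ι, rfl⟩
  let B : RigidifiedLineBundle c ε (U.ι ≫ τ) := bundleOfRig N hN g hU
  obtain ⟨W', hvW', hW'⟩ := hloc (U.ι ≫ τ) B ⟨v, hvU⟩
  have key : ∀ (K : Type u) [Field K] (κ : Spec (CommRingCat.of K) ⟶ Spec (CommRingCat.of k))
      (s : SchemeHomOver κ τ), Set.range s.1 ⊆ ((U.ι ''ᵁ W' : T.Opens) : Set T) →
      ∃ sU : SchemeHomOver κ (U.ι ≫ τ), Set.range sU.1 ⊆ (W' : Set U) ∧
        d K κ (fibreBundle N hN s) = d K κ (B.pullbackAlong sU) := by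
    intro K _ κ s hs
    have hsU : Set.range s.1 ⊆ Set.range U.ι := by
      rintro _ ⟨y, rfl⟩
      obtain ⟨w, -, hw⟩ := hs ⟨y, rfl⟩
      exact ⟨w, hw⟩
    let l : Spec (CommRingCat.of K) ⟶ U.toScheme := IsOpenImmersion.lift U.ι s.1 hsU
    have hl : l ≫ U.ι = s.1 := IsOpenImmersion.lift_fac _ _ _
    refine ⟨⟨l, by rw [← Category.assoc, hl, s.2]⟩, ?_, ?_⟩
    · rintro _ ⟨y, rfl⟩
      obtain ⟨w, hw, hw'⟩ := hs ⟨y, rfl⟩
      have h1 : U.ι (l y) = s.1 y := by rw [← hl]; rfl
      have h2 : l y = w := U.ι.isOpenEmbedding.injective (h1.trans hw'.symm)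
      show l y ∈ (W' : Set U)
      rw [h2]
      exact hw
    · exact (hiso K κ _ _ ⟨bundleOfRigPullbackIso N hN g hU _ s hl⟩).symm
  refine ⟨U.ι ''ᵁ W', ⟨⟨v, hvU⟩, hvW', rfl⟩, ?_⟩
  intro K _ κ s K' _ κ' s' hs hs'
  obtain ⟨sU, h1, h2⟩ := key K κ s hs
  obtain ⟨sU', h1', h2'⟩ := key K' κ' s' hs'
  rw [h2, h2']
  exact hW' K κ sU K' κ' sU' h1 h1'

/-- The invariant is constant along the fibres of an invertible module over a preconnected
base. -/
theorem fibreBundle_const_of_preconnected (hiso : InvariantIso d)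
    (hloc : LocallyConstantInFamilies d)
    {T : Scheme.{u}} [PreconnectedSpace T] {τ : T ⟶ Spec (CommRingCat.of k)}
    (N : (pullback c τ).Modules) (hN : Scheme.Modules.IsInvertible N)
    (K : Type u) [Field K] (κ : Spec (CommRingCat.of K) ⟶ Spec (CommRingCat.of k))
    (s : SchemeHomOver κ τ) (K' : Type u) [Field K']
    (κ' : Spec (CommRingCat.of K') ⟶ Spec (CommRingCat.of k)) (s' : SchemeHomOver κ' τ) :
    d K κ (fibreBundle N hN s) = d K' κ' (fibreBundle N hN s') := by
  -- the invariant as a function on the points of `T`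
  let F : T → D := fun v =>
    d (T.residueField v) (T.fromSpecResidueField v ≫ τ)
      (fibreBundle N hN (⟨T.fromSpecResidueField v, rfl⟩ :
        SchemeHomOver (T.fromSpecResidueField v ≫ τ) τ))
  have hF : ∀ (K : Type u) [Field K] (κ : Spec (CommRingCat.of K) ⟶ Spec (CommRingCat.of k))
      (s : SchemeHomOver κ τ) (v : T), Set.range s.1 ⊆ {v} →
      d K κ (fibreBundle N hN s) = F v := by
    intro K _ κ s v hs
    obtain ⟨W, hvW, hW⟩ := exists_open_fibreBundle_const hiso hloc N hN v
    refine hW K κ s _ _ _ (hs.trans (Set.singleton_subset_iff.mpr hvW)) ?_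
    rw [Scheme.range_fromSpecResidueField]
    exact Set.singleton_subset_iff.mpr hvW
  have hFloc : IsLocallyConstant F := by
    rw [IsLocallyConstant.iff_exists_open]
    intro v
    obtain ⟨W, hvW, hW⟩ := exists_open_fibreBundle_const hiso hloc N hN v
    refine ⟨W, W.2, hvW, fun w hw => ?_⟩
    refine hW _ _ _ _ _ _ ?_ ?_
    · rw [Scheme.range_fromSpecResidueField]
      exact Set.singleton_subset_iff.mpr hw
    · rw [Scheme.range_fromSpecResidueField]
      exact Set.singleton_subset_iff.mpr hvW
  have hpt : ∀ (K : Type u) [Field K] (f : Spec (CommRingCat.of K) ⟶ T),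
      Set.range f ⊆ {f default} := by
    intro K _ f
    rintro _ ⟨y, rfl⟩
    rw [Subsingleton.elim y default]
    rfl
  rw [hF K κ s _ (hpt K s.1), hF K' κ' s' _ (hpt K' s'.1)]
  exact hFloc.apply_eq_of_preconnectedSpace _ _

/-- **B6-FORMAL (a): the constancy principle.**  Let `d` be an invariant of rigidified line
bundles over fields which is invariant under isomorphism and locally constant in families, and
let `d₀` be its value on trivial bundles.  If `M` is fibrewise algebraically equivalent to zero,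
then `d` takes the value `d₀` on the fibre of `M` over every point with values in an
algebraically closed field. -/
theorem eq_of_fibrewiseAlgEquivZero (hiso : InvariantIso d)
    (hloc : LocallyConstantInFamilies d) (d₀ : D)
    (hunit : ∀ (K : Type u) [Field K] (κ : Spec (CommRingCat.of K) ⟶ Spec (CommRingCat.of k)),
      d K κ (RigidifiedLineBundle.unit κ) = d₀)
    {T : Scheme.{u}} {t : T ⟶ Spec (CommRingCat.of k)} (M : RigidifiedLineBundle c ε t)
    (hM : FibrewiseAlgEquivZero M)
    (K : Type u) [Field K] [IsAlgClosed K]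
    (κ : Spec (CommRingCat.of K) ⟶ Spec (CommRingCat.of k)) (s : SchemeHomOver κ t) :
    d K κ (M.pullbackAlong s) = d₀ := by
  obtain ⟨T', h, hft, hgi, N, hN, t₀, t₁, ⟨e₀⟩, ⟨e₁⟩⟩ := hM K s.1
  -- notation
  let a : pullback (pullback.snd c t) s.1 ⟶ Spec (CommRingCat.of K) := fibreAt c t s.1
  have ha : pullback.fst (pullback.snd c t) s.1 ≫ pullback.snd c t = a ≫ s.1 := pullback.condition
  let τ : T' ⟶ Spec (CommRingCat.of k) := h ≫ κ
  have hτ : pullback.fst c τ ≫ c = pullback.snd c τ ≫ h ≫ κ := pullback.condition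
  -- the comparison morphism `Θ : C ×ₖ T' ⟶ A ×_K T'`
  let β : pullback c τ ⟶ pullback c t :=
    pullback.lift (pullback.fst c τ) (pullback.snd c τ ≫ h ≫ s.1)
      (by rw [hτ, Category.assoc, Category.assoc, s.2])
  have hβ1 : β ≫ pullback.fst c t = pullback.fst c τ := pullback.lift_fst _ _ _
  have hβ2 : β ≫ pullback.snd c t = pullback.snd c τ ≫ h ≫ s.1 := pullback.lift_snd _ _ _
  let α : pullback c τ ⟶ pullback (pullback.snd c t) s.1 :=
    pullback.lift β (pullback.snd c τ ≫ h) (by rw [hβ2, Category.assoc])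
  have hα1 : α ≫ pullback.fst (pullback.snd c t) s.1 = β := pullback.lift_fst _ _ _
  have hα2 : α ≫ a = pullback.snd c τ ≫ h := pullback.lift_snd _ _ _
  let Θ : pullback c τ ⟶ pullback a h := pullback.lift α (pullback.snd c τ) hα2
  have hΘ1 : Θ ≫ pullback.fst a h = α := pullback.lift_fst _ _ _
  have hΘ2 : Θ ≫ pullback.snd a h = pullback.snd c τ := pullback.lift_snd _ _ _
  let N' : (pullback c τ).Modules := (Scheme.Modules.pullback Θ).obj N
  have hN' : Scheme.Modules.IsInvertible N' := hN.pullback Θ
  -- the fibre `C_K` and its comparison morphism `γ`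
  let α' : pullback c κ ⟶ pullback (pullback.snd c t) s.1 :=
    pullback.lift (baseChangeSnd c s) (pullback.snd c κ) (baseChangeSnd_snd c s)
  have hα'1 : α' ≫ pullback.fst (pullback.snd c t) s.1 = baseChangeSnd c s :=
    pullback.lift_fst _ _ _
  have hα'2 : α' ≫ a = pullback.snd c κ := pullback.lift_snd _ _ _
  let γ : pullback c κ ⟶ pullback a (𝟙 (Spec (CommRingCat.of K))) :=
    pullback.lift α' (pullback.snd c κ) (by rw [hα'2, Category.comp_id])
  have hγ1 : γ ≫ pullback.fst a (𝟙 _) = α' := pullback.lift_fst _ _ _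
  have hγ2 : γ ≫ pullback.snd a (𝟙 _) = pullback.snd c κ := pullback.lift_snd _ _ _
  -- sections of `h` as points of `T'` over `k`
  have hsec : ∀ ti : SchemeHomOver (𝟙 (Spec (CommRingCat.of K))) h, ti.1 ≫ τ = κ := by
    intro ti
    rw [← Category.assoc, ti.2, Category.id_comp]
  have hsq : ∀ ti : SchemeHomOver (𝟙 (Spec (CommRingCat.of K))) h,
      baseChangeSnd c (⟨ti.1, hsec ti⟩ : SchemeHomOver κ τ) ≫ Θ = γ ≫ baseChangeSnd a ti := by
    intro ti
    have hbeta : baseChangeSnd c (⟨ti.1, hsec ti⟩ : SchemeHomOver κ τ) ≫ β =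
        baseChangeSnd c s := by
      apply pullback.hom_ext
      · rw [Category.assoc, hβ1, baseChangeSnd_fst, baseChangeSnd_fst]
      · rw [Category.assoc, hβ2, baseChangeSnd_snd_assoc, baseChangeSnd_snd]
        show pullback.snd c κ ≫ ti.1 ≫ h ≫ s.1 = _
        rw [reassoc_of% ti.2]
    have halpha : baseChangeSnd c (⟨ti.1, hsec ti⟩ : SchemeHomOver κ τ) ≫ α = α' := by
      apply pullback.hom_ext
      · rw [Category.assoc, hα1, hbeta, hα'1]
      · have h1 : (baseChangeSnd c (⟨ti.1, hsec ti⟩ : SchemeHomOver κ τ) ≫ α) ≫ a =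
            pullback.snd c κ := by
          rw [Category.assoc, hα2, baseChangeSnd_snd_assoc]
          show pullback.snd c κ ≫ ti.1 ≫ h = _
          rw [ti.2, Category.comp_id]
        exact h1.trans hα'2.symm
    apply pullback.hom_ext
    · rw [Category.assoc, hΘ1, halpha, Category.assoc, baseChangeSnd_fst, hγ1]
    · rw [Category.assoc, hΘ2, baseChangeSnd_snd, Category.assoc, baseChangeSnd_snd,
        reassoc_of% hγ2]
  -- `T'` is irreducible, hence preconnected
  have : IsIntegral T' := GeometricallyIntegral.isIntegral_of_subsingleton h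
  have : PreconnectedSpace T' := inferInstance
  -- the values at the two points
  have h0 : d K κ (fibreBundle N' hN' (⟨t₀.1, hsec t₀⟩ : SchemeHomOver κ τ)) = d₀ := by
    rw [← hunit K κ]
    refine hiso K κ _ _ ⟨?_⟩
    exact pullbackSquareIso (hsq t₀) N ≪≫ (Scheme.Modules.pullback γ).mapIso e₀ ≪≫
      Scheme.Modules.pullbackUnitIso γ
  have h1 : d K κ (fibreBundle N' hN' (⟨t₁.1, hsec t₁⟩ : SchemeHomOver κ τ)) =
      d K κ (M.pullbackAlong s) := by
    refine hiso K κ _ _ ⟨?_⟩
    exact pullbackSquareIso (hsq t₁) N ≪≫ (Scheme.Modules.pullback γ).mapIso e₁ ≪≫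
      pullbackFactorIso hγ1 _ ≪≫ pullbackFactorIso hα'1 M.L
  rw [← h1, ← h0]
  exact fibreBundle_const_of_preconnected hiso hloc N' hN' _ _ _ _ _ _

end Principle

end

end Fermat.Agent.S25.H206
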