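import Fermat.Agent.S25.Defs
import Fermat.Agent.S25.H206.Constancy

/-!
# S25 / route piece B6-FORMAL (a'): the constancy principle in algebra form

The same principle as `eq_of_fibrewiseAlgEquivZero`, for invariants given on rigidified line
bundles over `specStr k K` (`K` a field with an `Algebra k K` instance) and local constancy tested
on affine bases `Spec A` only, in the language of the row's `Defs.lean`
(`specStr`, `specHomOver`).  This is the formal half of `Stmt.DictDeg` (⇒).
-/

set_option autoImplicit false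

universe u

open CategoryTheory CategoryTheory.Limits AlgebraicGeometry AlgebraicGeometry.RelPicard
  NeronModelInfra

namespace Fermat.Agent.S25.H206

open Fermat.Agent.S25

noncomputable section

variable {k : Type u} [Field k] {C : Scheme.{u}} {c : C ⟶ Spec (CommRingCat.of k)}
  {ε : SchemeHomOver (𝟙 (Spec (CommRingCat.of k))) c}

/-! ### Pullback of rigidified bundles along composites and identities -/

/-- Pulling back twice is pulling back along the composite. -/
def pullbackAlongCompIso {T T' T'' : Scheme.{u}} {t : T ⟶ Spec (CommRingCat.of k)}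
    {t' : T' ⟶ Spec (CommRingCat.of k)} {t'' : T'' ⟶ Spec (CommRingCat.of k)}
    (M : RigidifiedLineBundle c ε t) (ψ : SchemeHomOver t' t) (χ : SchemeHomOver t'' t')
    (ρ : SchemeHomOver t'' t) (h : χ.1 ≫ ψ.1 = ρ.1) :
    ((M.pullbackAlong ψ).pullbackAlong χ).L ≅ (M.pullbackAlong ρ).L :=
  pullbackFactorIso (show baseChangeSnd c χ ≫ baseChangeSnd c ψ = baseChangeSnd c ρ by
    rw [baseChangeSnd_comp]
    congr 1
    exact Subtype.ext h) M.L

/-- Pulling back along the identity does nothing. -/
def pullbackAlongIdIso {T : Scheme.{u}} {t : T ⟶ Spec (CommRingCat.of k)}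
    (M : RigidifiedLineBundle c ε t) (ψ : SchemeHomOver t t) (h : ψ.1 = 𝟙 T) :
    (M.pullbackAlong ψ).L ≅ M.L :=
  (Scheme.Modules.pullbackCongr (show baseChangeSnd c ψ = 𝟙 _ by
    rw [← baseChangeSnd_id c t]
    congr 1
    exact Subtype.ext h)).app M.L ≪≫ (Scheme.Modules.pullbackId _).app M.L

/-- Two pullbacks along morphisms with the same composite are isomorphic. -/
def pullbackAlongSquareIso {T T₁ T₂ T'' : Scheme.{u}} {t : T ⟶ Spec (CommRingCat.of k)}
    {t₁ : T₁ ⟶ Spec (CommRingCat.of k)} {t₂ : T₂ ⟶ Spec (CommRingCat.of k)}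
    {t'' : T'' ⟶ Spec (CommRingCat.of k)}
    (M : RigidifiedLineBundle c ε t) (ψ₁ : SchemeHomOver t₁ t) (χ₁ : SchemeHomOver t'' t₁)
    (ψ₂ : SchemeHomOver t₂ t) (χ₂ : SchemeHomOver t'' t₂) (h : χ₁.1 ≫ ψ₁.1 = χ₂.1 ≫ ψ₂.1) :
    ((M.pullbackAlong ψ₁).pullbackAlong χ₁).L ≅ ((M.pullbackAlong ψ₂).pullbackAlong χ₂).L :=
  pullbackAlongCompIso M ψ₁ χ₁ (postComp ψ₁ χ₁) rfl ≪≫
    (pullbackAlongCompIso M ψ₂ χ₂ (postComp ψ₁ χ₁) h.symm).symm

/-! ### Algebra structures from morphisms of spectra -/

/-- The algebra structure on `A` defined by a morphism `Spec A ⟶ Spec k`. -/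
@[reducible] def algOfHom (A : Type u) [CommRing A]
    (κ : Spec (CommRingCat.of A) ⟶ Spec (CommRingCat.of k)) : Algebra k A :=
  (Spec.preimage κ).hom.toAlgebra

theorem specStr_algOfHom (A : Type u) [CommRing A]
    (κ : Spec (CommRingCat.of A) ⟶ Spec (CommRingCat.of k)) :
    @specStr k _ A _ (algOfHom A κ) = κ :=
  Spec.map_preimage κ

theorem algOfHom_specStr (A : Type u) [CommRing A] [i : Algebra k A] :
    algOfHom A (specStr k A) = i := by
  apply Algebra.algebra_ext
  intro r
  show (Spec.preimage (specStr k A)).hom r = algebraMap k A r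
  rw [specStr, Spec.preimage_map]
  rfl

/-! ### From algebra-form invariants to scheme-form invariants -/

section Adapter

variable {D : Type*}
  (d : ∀ (K : Type u) [Field K] [Algebra k K], RigidifiedLineBundle c ε (specStr k K) → D)

/-- The identity of `Spec K`, as a morphism over `Spec k` from `specStr k K` (for the algebra
structure defined by `κ`) to `κ`. -/
def idOver (A : Type u) [CommRing A] (κ : Spec (CommRingCat.of A) ⟶ Spec (CommRingCat.of k)) :
    SchemeHomOver (@specStr k _ A _ (algOfHom A κ)) κ :=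
  ⟨𝟙 _, (Category.id_comp _).trans (specStr_algOfHom A κ).symm⟩

/-- The scheme-form invariant attached to an algebra-form invariant. -/
def schemeForm (K : Type u) [Field K] (κ : Spec (CommRingCat.of K) ⟶ Spec (CommRingCat.of k))
    (L : RigidifiedLineBundle c ε κ) : D :=
  @d K _ (algOfHom K κ) (L.pullbackAlong (idOver K κ))

/-- Isomorphism invariance of an algebra-form invariant. -/
def InvariantIsoAlg : Prop :=
  ∀ (K : Type u) [Field K] [Algebra k K] (L L' : RigidifiedLineBundle c ε (specStr k K)),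
    Nonempty (L.L ≅ L'.L) → d K L = d K L'

/-- Local constancy of an algebra-form invariant in affine families. -/
def LocallyConstantAlg : Prop :=
  ∀ (A : Type u) [CommRing A] [Algebra k A] (M : RigidifiedLineBundle c ε (specStr k A))
    (p : PrimeSpectrum A), ∃ f : A, f ∉ p.asIdeal ∧
      ∀ (K : Type u) [Field K] [Algebra k K] (φ : A →ₐ[k] K)
        (K' : Type u) [Field K'] [Algebra k K'] (φ' : A →ₐ[k] K'), φ f ≠ 0 → φ' f ≠ 0 →
          d K (M.pullbackAlong (specHomOver k φ)) = d K' (M.pullbackAlong (specHomOver k φ'))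

variable {d}

theorem d_congr_instance (hiso : InvariantIsoAlg d) (K : Type u) [Field K]
    (i₁ i₂ : Algebra k K) (h : i₁ = i₂)
    (L : RigidifiedLineBundle c ε (@specStr k _ K _ i₁))
    (ψ : SchemeHomOver (@specStr k _ K _ i₂) (@specStr k _ K _ i₁)) (hψ : ψ.1 = 𝟙 _) :
    @d K _ i₂ (L.pullbackAlong ψ) = @d K _ i₁ L := by
  subst h
  exact hiso K _ _ ⟨pullbackAlongIdIso L ψ hψ⟩

theorem schemeForm_specStr (hiso : InvariantIsoAlg d) (K : Type u) [Field K] [i : Algebra k K]
    (L : RigidifiedLineBundle c ε (specStr k K)) :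
    schemeForm d K (specStr k K) L = d K L :=
  d_congr_instance hiso K i (algOfHom K (specStr k K)) (algOfHom_specStr K).symm L _ rfl

theorem invariantIso_schemeForm (hiso : InvariantIsoAlg d) :
    InvariantIso (c := c) (ε := ε) (schemeForm d) := by
  intro K _ κ L L' h
  let _ : Algebra k K := algOfHom K κ
  exact hiso K _ _ (RigidifiedLineBundle.pullbackAlong_congr _ h)

/-- A field-valued point of `T` landing in an affine open `W` comes from a `k`-algebra
homomorphism `Γ(T, W) → K`. -/
theorem exists_algHom_of_range_subset {T : Scheme.{u}} (t : T ⟶ Spec (CommRingCat.of k))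
    {W : T.Opens} (hW : IsAffineOpen W) (K : Type u) [Field K]
    (κ : Spec (CommRingCat.of K) ⟶ Spec (CommRingCat.of k)) (s : SchemeHomOver κ t)
    (f : Γ(T, W))
    (hs : Set.range s.1 ⊆ ((hW.fromSpec ''ᵁ (PrimeSpectrum.basicOpen f) : T.Opens) : Set T)) :
    letI : Algebra k Γ(T, W) := algOfHom Γ(T, W) (hW.fromSpec ≫ t)
    letI : Algebra k K := algOfHom K κ
    ∃ φ : Γ(T, W) →ₐ[k] K,
      φ f ≠ 0 ∧ Spec.map (CommRingCat.ofHom φ.toRingHom) ≫ hW.fromSpec = s.1 := by
  letI : Algebra k Γ(T, W) := algOfHom Γ(T, W) (hW.fromSpec ≫ t)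
  letI : Algebra k K := algOfHom K κ
  have hsj : Set.range s.1 ⊆ Set.range hW.fromSpec := by
    rintro _ ⟨y, rfl⟩
    obtain ⟨w, -, hw⟩ := hs ⟨y, rfl⟩
    exact ⟨w, hw⟩
  let l : Spec (CommRingCat.of K) ⟶ Spec Γ(T, W) := IsOpenImmersion.lift hW.fromSpec s.1 hsj
  have hl : l ≫ hW.fromSpec = s.1 := IsOpenImmersion.lift_fac _ _ _
  have hcomm : Spec.preimage (hW.fromSpec ≫ t) ≫ Spec.preimage l = Spec.preimage κ := by
    apply Spec.map_injective
    rw [Spec.map_comp, Spec.map_preimage, Spec.map_preimage, Spec.map_preimage,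
      ← Category.assoc, hl, s.2]
  refine ⟨AlgHom.mk (Spec.preimage l).hom (fun r => ?_), ?_, ?_⟩
  · exact congrArg (fun g => g.hom r) hcomm
  · intro h0
    obtain ⟨w, hw, hw'⟩ := hs ⟨default, rfl⟩
    have h1 : hW.fromSpec (l default) = s.1 default := by rw [← hl]; rfl
    have h2 : l default = w := hW.fromSpec.isOpenEmbedding.injective (h1.trans hw'.symm)
    have h3 : f ∈ (l default).asIdeal := by
      have hl' : l = Spec.map (Spec.preimage l) := (Spec.map_preimage l).symm
      rw [hl']
      show f ∈ Ideal.comap (Spec.preimage l).hom _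
      rw [Ideal.mem_comap]
      have : (Spec.preimage l).hom f = 0 := h0
      rw [this]
      exact zero_mem _
    rw [h2] at h3
    exact hw h3
  · show Spec.map (Spec.preimage l) ≫ hW.fromSpec = s.1
    rw [Spec.map_preimage, hl]

theorem locallyConstantInFamilies_schemeForm (hiso : InvariantIsoAlg d)
    (hloc : LocallyConstantAlg d) :
    LocallyConstantInFamilies (c := c) (ε := ε) (schemeForm d) := by
  intro T t M v
  obtain ⟨W, hW, hvW, -⟩ := exists_isAffineOpen_mem_and_subset (x := v) (U := ⊤) trivial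
  letI iA : Algebra k Γ(T, W) := algOfHom Γ(T, W) (hW.fromSpec ≫ t)
  have hτ : specStr k Γ(T, W) = hW.fromSpec ≫ t := specStr_algOfHom _ _
  let jO : SchemeHomOver (specStr k Γ(T, W)) t := ⟨hW.fromSpec, hτ.symm⟩
  obtain ⟨p, hp⟩ : ∃ p : Spec Γ(T, W), hW.fromSpec p = v := by
    have : v ∈ Set.range hW.fromSpec := by rw [hW.range_fromSpec]; exact hvW
    exact this
  obtain ⟨f, hf, H⟩ := hloc Γ(T, W) (M.pullbackAlong jO) p
  refine ⟨hW.fromSpec ''ᵁ (PrimeSpectrum.basicOpen f), ⟨p, hf, hp⟩, ?_⟩
  have key : ∀ (K : Type u) [Field K] (κ : Spec (CommRingCat.of K) ⟶ Spec (CommRingCat.of k))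
      (s : SchemeHomOver κ t),
      Set.range s.1 ⊆ ((hW.fromSpec ''ᵁ (PrimeSpectrum.basicOpen f) : T.Opens) : Set T) →
      letI : Algebra k K := algOfHom K κ
      ∃ φ : Γ(T, W) →ₐ[k] K, φ f ≠ 0 ∧
        schemeForm d K κ (M.pullbackAlong s) =
          d K ((M.pullbackAlong jO).pullbackAlong (specHomOver k φ)) := by
    intro K _ κ s hs
    letI : Algebra k K := algOfHom K κ
    obtain ⟨φ, hφ, hφs⟩ := exists_algHom_of_range_subset t hW K κ s f hs
    refine ⟨φ, hφ, ?_⟩
    refine hiso K _ _ ⟨?_⟩
    refine pullbackAlongSquareIso M s (idOver K κ) jO (specHomOver k φ) ?_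
    exact (Category.id_comp _).trans hφs.symm
  intro K _ κ s K' _ κ' s' hs hs'
  letI : Algebra k K := algOfHom K κ
  letI : Algebra k K' := algOfHom K' κ'
  obtain ⟨φ, hφ, h1⟩ := key K κ s hs
  obtain ⟨φ', hφ', h1'⟩ := key K' κ' s' hs'
  rw [h1, h1']
  exact H K φ K' φ' hφ hφ'

/-- **B6-FORMAL (a'): the constancy principle, algebra form.**  Let `d` be an invariant of
rigidified line bundles over fields `K ⊇ k` which is invariant under isomorphism and locally
constant in affine families, and let `d₀` be its value on trivial bundles.  If `M` over `Spec A`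
is fibrewise algebraically equivalent to zero, then `d` takes the value `d₀` on the fibre of `M`
over every point of `Spec A` with values in an algebraically closed field. -/
theorem eq_of_fibrewiseAlgEquivZero_alg (hiso : InvariantIsoAlg d)
    (hloc : LocallyConstantAlg d) (d₀ : D)
    (hunit : ∀ (K : Type u) [Field K] [Algebra k K],
      d K (RigidifiedLineBundle.unit (specStr k K)) = d₀)
    {T : Scheme.{u}} {t : T ⟶ Spec (CommRingCat.of k)} (M : RigidifiedLineBundle c ε t)
    (hM : FibrewiseAlgEquivZero M)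
    (K : Type u) [Field K] [IsAlgClosed K] [Algebra k K] (s : SchemeHomOver (specStr k K) t) :
    d K (M.pullbackAlong s) = d₀ := by
  rw [← schemeForm_specStr hiso K (M.pullbackAlong s)]
  refine eq_of_fibrewiseAlgEquivZero (invariantIso_schemeForm hiso)
    (locallyConstantInFamilies_schemeForm hiso hloc) d₀ ?_ M hM K (specStr k K) s
  intro K' _ κ'
  let _ : Algebra k K' := algOfHom K' κ'
  show d K' ((RigidifiedLineBundle.unit κ').pullbackAlong (idOver K' κ')) = d₀
  rw [← hunit K']
  exact hiso K' _ _ ⟨Scheme.Modules.pullbackUnitIso _⟩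

end Adapter

end

end Fermat.Agent.S25.H206
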