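import Fermat.Agent.S25.DefsDict
import Fermat.Agent.S25.H206.ConstancyAlg

/-!
# S25 / block DICTDEG, direction (⇒)

`FibrewiseAlgEquivZero M → G.Deg0` for a gluing datum `G` of sections of `M`, from the frozen
dictionary statements (`DictSections`, `DictIso`, `DictBC`, `AlgBCExists`), the unit
correspondence and three facts about the degree of gluing data over fields (invariance under
isomorphism and field extension, local constancy in families).  The proof is the constancy
principle `eq_of_fibrewiseAlgEquivZero_alg` applied to the degree.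
-/

set_option autoImplicit false

universe u

open CategoryTheory CategoryTheory.Limits AlgebraicGeometry AlgebraicGeometry.RelPicard
  NeronModelInfra
open scoped TensorProduct

namespace Fermat.Agent.S25.H206

open Fermat.Agent.S25

noncomputable section

variable {k : Type u} [Field k] {C : Scheme.{u}} {c : C ⟶ Spec (CommRingCat.of k)}
  {ε : SchemeHomOver (𝟙 (Spec (CommRingCat.of k))) c}

/-- The unit gluing datum corresponds to the unit bundle (over fields). -/
def DictUnitField (Ch : ChartOf c ε) : Prop :=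
  ∀ (K : Type u) [Field K] [Algebra k K],
    Corr Ch K (RigidifiedLineBundle.unit (c := c) (ε := ε) (specStr k K)).L
      (GlueDatum.unit K (K ⊗[k] Ch.B₀) (K ⊗[k] Ch.B₁) (K ⊗[k] Ch.B₀₁))

/-- The degree of gluing data over fields is invariant under isomorphism. -/
def DegreeIso (Ch : ChartOf c ε) : Prop :=
  ∀ (K : Type u) [Field K] [Algebra k K] (G G' : CurveGD k Ch.B₀ Ch.B₁ Ch.B₀₁ K),
    G.IsIso G' → G.degree = G'.degree

/-- The degree of gluing data over fields is invariant under field extension. -/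
def DegreeExt (Ch : ChartOf c ε) : Prop :=
  ∀ (K K' : Type u) [Field K] [Algebra k K] [Field K'] [Algebra k K'] (φ : K →ₐ[k] K')
    (G : CurveGD k Ch.B₀ Ch.B₁ Ch.B₀₁ K) (G' : CurveGD k Ch.B₀ Ch.B₁ Ch.B₀₁ K'),
    CurveGD.IsBC φ G G' → G'.degree = G.degree

/-- The degree of the fibres of a gluing datum over `A` is locally constant on `Spec A`. -/
def DegreeLoc (Ch : ChartOf c ε) : Prop :=
  ∀ (A : Type u) [CommRing A] [Algebra k A] (G : CurveGD k Ch.B₀ Ch.B₁ Ch.B₀₁ A)
    (p : PrimeSpectrum A), ∃ f : A, f ∉ p.asIdeal ∧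
      ∀ (K : Type u) [Field K] [Algebra k K] (φ : A →ₐ[k] K)
        (GK : CurveGD k Ch.B₀ Ch.B₁ Ch.B₀₁ K)
        (K' : Type u) [Field K'] [Algebra k K'] (φ' : A →ₐ[k] K')
        (GK' : CurveGD k Ch.B₀ Ch.B₁ Ch.B₀₁ K'),
        CurveGD.IsBC φ G GK → CurveGD.IsBC φ' G GK' → φ f ≠ 0 → φ' f ≠ 0 →
          GK.degree = GK'.degree

section

variable (Ch : ChartOf c ε)

/-- The degree of a rigidified line bundle over a field, computed through the dictionary. -/
def bundleDegree (hSec : Stmt.DictSections Ch) (K : Type u) [Field K] [Algebra k K]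
    (L : RigidifiedLineBundle c ε (specStr k K)) : ℤ :=
  (hSec K L).choose.degree

variable {Ch}

theorem bundleDegree_eq (hSec : Stmt.DictSections Ch) (hIso : Stmt.DictIso Ch) (hdegIso : DegreeIso Ch)
    (K : Type u) [Field K] [Algebra k K] (L : RigidifiedLineBundle c ε (specStr k K))
    (G : CurveGD k Ch.B₀ Ch.B₁ Ch.B₀₁ K) (hG : Corr Ch K L.L G) :
    bundleDegree Ch hSec K L = G.degree :=
  hdegIso K _ _ ((hIso K L L _ G (hSec K L).choose_spec.1 hG).mp ⟨Iso.refl _⟩)

theorem bundleDegree_iso (hSec : Stmt.DictSections Ch) (hIso : Stmt.DictIso Ch) (hdegIso : DegreeIso Ch) :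
    InvariantIsoAlg (c := c) (ε := ε) (bundleDegree Ch hSec) := by
  intro K _ _ L L' h
  exact hdegIso K _ _ ((hIso K L L' _ _ (hSec K L).choose_spec.1 (hSec K L').choose_spec.1).mp h)

theorem bundleDegree_unit (hSec : Stmt.DictSections Ch) (hIso : Stmt.DictIso Ch) (hdegIso : DegreeIso Ch)
    (hUnit : DictUnitField Ch) (K : Type u) [Field K] [Algebra k K] :
    bundleDegree Ch hSec K (RigidifiedLineBundle.unit (specStr k K)) = 0 := by
  rw [bundleDegree_eq hSec hIso hdegIso K _ _ (hUnit K)]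
  exact sub_self _

theorem bundleDegree_pullback (hSec : Stmt.DictSections Ch) (hIso : Stmt.DictIso Ch) (hBC : Stmt.DictBC Ch)
    (hdegIso : DegreeIso Ch)
    (A : Type u) [CommRing A] [Algebra k A] (M : RigidifiedLineBundle c ε (specStr k A))
    (G : CurveGD k Ch.B₀ Ch.B₁ Ch.B₀₁ A) (hG : Corr Ch A M.L G)
    (K : Type u) [Field K] [Algebra k K] (φ : A →ₐ[k] K)
    (GK : CurveGD k Ch.B₀ Ch.B₁ Ch.B₀₁ K) (hGK : CurveGD.IsBC φ G GK) :
    bundleDegree Ch hSec K (M.pullbackAlong (specHomOver k φ)) = GK.degree :=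
  bundleDegree_eq hSec hIso hdegIso K _ GK (hBC A K φ M G GK hG hGK)

theorem bundleDegree_loc (hSec : Stmt.DictSections Ch) (hIso : Stmt.DictIso Ch) (hBC : Stmt.DictBC Ch)
    (hBCex : Stmt.AlgBCExists Ch) (hdegIso : DegreeIso Ch) (hdegLoc : DegreeLoc Ch) :
    LocallyConstantAlg (c := c) (ε := ε) (bundleDegree Ch hSec) := by
  intro A _ _ M p
  obtain ⟨G, hG, -⟩ := hSec A M
  obtain ⟨f, hf, H⟩ := hdegLoc A G p
  refine ⟨f, hf, ?_⟩
  intro K _ _ φ K' _ _ φ' hφ hφ'
  obtain ⟨GK, hGK⟩ := hBCex A K φ G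
  obtain ⟨GK', hGK'⟩ := hBCex A K' φ' G
  rw [bundleDegree_pullback hSec hIso hBC hdegIso A M G hG K φ GK hGK,
    bundleDegree_pullback hSec hIso hBC hdegIso A M G hG K' φ' GK' hGK']
  exact H K φ GK K' φ' GK' hGK hGK' hφ hφ'

/-- **DICTDEG (⇒).**  If `M` is fibrewise algebraically equivalent to zero, then every gluing
datum of sections of `M` has degree zero on every fibre. -/
theorem dictDeg_mp (hSec : Stmt.DictSections Ch) (hIso : Stmt.DictIso Ch) (hBC : Stmt.DictBC Ch)
    (hBCex : Stmt.AlgBCExists Ch) (hUnit : DictUnitField Ch) (hdegIso : DegreeIso Ch)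
    (hdegExt : DegreeExt Ch) (hdegLoc : DegreeLoc Ch)
    (A : Type u) [CommRing A] [Algebra k A] (M : RigidifiedLineBundle c ε (specStr k A))
    (G : CurveGD k Ch.B₀ Ch.B₁ Ch.B₀₁ A) (hG : Corr Ch A M.L G)
    (hM : FibrewiseAlgEquivZero M) : G.Deg0 := by
  intro K _ _ φ GK hGK
  -- pass to an algebraic closure of `K`
  let ι : K →ₐ[k] AlgebraicClosure K := IsScalarTower.toAlgHom k K (AlgebraicClosure K)
  obtain ⟨GKbar, hGKbar⟩ := hBCex K (AlgebraicClosure K) ι GK
  rw [← hdegExt K (AlgebraicClosure K) ι GK GKbar hGKbar]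
  -- the bundle over `K` and over its algebraic closure
  have hcorrK : Corr Ch K (M.pullbackAlong (specHomOver k φ)).L GK := hBC A K φ M G GK hG hGK
  have h1 : bundleDegree Ch hSec (AlgebraicClosure K)
      ((M.pullbackAlong (specHomOver k φ)).pullbackAlong (specHomOver k ι)) = GKbar.degree :=
    bundleDegree_pullback hSec hIso hBC hdegIso K _ GK hcorrK _ ι GKbar hGKbar
  rw [← h1]
  -- the composite point
  have hcomp : (specHomOver k ι).1 ≫ (specHomOver k φ).1 = (specHomOver k (ι.comp φ)).1 := by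
    show Spec.map _ ≫ Spec.map _ = Spec.map _
    rw [← Spec.map_comp]
    rfl
  rw [bundleDegree_iso hSec hIso hdegIso (AlgebraicClosure K) _
    (M.pullbackAlong (specHomOver k (ι.comp φ)))
    ⟨pullbackAlongCompIso M (specHomOver k φ) (specHomOver k ι) _ hcomp⟩]
  exact eq_of_fibrewiseAlgEquivZero_alg (bundleDegree_iso hSec hIso hdegIso)
    (bundleDegree_loc hSec hIso hBC hBCex hdegIso hdegLoc) 0
    (fun K' _ _ => bundleDegree_unit hSec hIso hdegIso hUnit K') M hM (AlgebraicClosure K)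
    (specHomOver k (ι.comp φ))

end

end

end Fermat.Agent.S25.H206
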