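import Mathlib
import Fermat.Prelude.Def_AlgebraicGeometry_RelativePicardFunctor
import Fermat.Agent.S25.H206.InvertibleLocal

/-!
# S25 / block GLUE / leaf G3 (part 2): invertible modules are quasi-coherent

* `presentationOverOfRestrict`, `quasicoherentDataOfRestrict`, `isQuasicoherent_of_isOpenCover`:
  quasi-coherence can be checked on an open cover, with `Scheme.Modules.restrict`
  (the converse of Mathlib's `Scheme.Modules.exists_isOpenCover_presentation`).
* `isQuasicoherent_of_isInvertible`, `isFinitePresentation_of_isInvertible`,
  `isLocallyFree_of_isInvertible`.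
-/

set_option autoImplicit false

universe u v₁ u₁

open CategoryTheory CategoryTheory.Limits AlgebraicGeometry

namespace Fermat.Agent.S25.H206

section Site

variable {C : Type u₁} [Category.{v₁} C] {J : GrothendieckTopology C} {R : Sheaf J RingCat.{u}}
  [HasSheafify J AddCommGrpCat.{u}] [J.WEqualsLocallyBijective AddCommGrpCat.{u}]

theorem isIso_free_generatingSections_π (I : Type u) :
    IsIso (SheafOfModules.free.generatingSections (R := R) I).π := by
  rw [SheafOfModules.free.generatingSections_π]
  exact IsIso.id _

/-- The presentation of a free sheaf of modules, without relations. -/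
noncomputable def presentationFree (I : Type u) :
    (SheafOfModules.free (R := R) I).Presentation where
  generators := SheafOfModules.free.generatingSections I
  relations :=
    haveI := isIso_free_generatingSections_π (R := R) I
    { I := PEmpty.{u + 1}
      s := fun j => j.elim
      epi := IsZero.epi (IsZero.of_iso (isZero_zero _) (Limits.kernel.ofMono _)) _ }

theorem presentationFree_isIso_π (I : Type u) :
    IsIso (presentationFree (R := R) I).generators.π :=
  isIso_free_generatingSections_π I

theorem presentationFree_isFinite (I : Type u) [Finite I] :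
    (presentationFree (R := R) I).IsFinite where
  isFiniteType_generators := ⟨inferInstanceAs (Finite I)⟩
  isFiniteType_relations := ⟨inferInstanceAs (Finite PEmpty.{u + 1})⟩

/-- The free sheaf of modules on one generator is the unit. -/
noncomputable def freePUnitIso :
    SheafOfModules.free (R := R) PUnit.{u + 1} ≅ SheafOfModules.unit R :=
  coproductUniqueIso (fun _ : PUnit.{u + 1} => SheafOfModules.unit R)

/-- The presentation of the unit sheaf of modules: one generator, no relations. -/
noncomputable def presentationUnit : (SheafOfModules.unit R).Presentation :=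
  (presentationFree (R := R) PUnit.{u + 1}).ofIsIso freePUnitIso.hom

theorem presentationUnit_isFinite : (presentationUnit (R := R)).IsFinite :=
  haveI := presentationFree_isFinite (R := R) PUnit.{u + 1}
  inferInstanceAs (((presentationFree (R := R) PUnit.{u + 1}).ofIsIso freePUnitIso.hom).IsFinite)

theorem presentationUnit_isIso_π : IsIso (presentationUnit (R := R)).generators.π := by
  have : (presentationUnit (R := R)).generators.π =
      (presentationFree (R := R) PUnit.{u + 1}).generators.π ≫ freePUnitIso.hom :=
    SheafOfModules.GeneratingSections.ofEpi_π _ _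
  rw [this]
  have h1 := presentationFree_isIso_π (R := R) PUnit.{u + 1}
  have h2 : IsIso (freePUnitIso (R := R)).hom := Iso.isIso_hom _
  exact IsIso.comp_isIso' h1 h2

section Map

variable {C' : Type*} [Category C'] {J' : GrothendieckTopology C'} {S : Sheaf J' RingCat.{u}}
  [HasSheafify J' AddCommGrpCat.{u}] [J'.WEqualsLocallyBijective AddCommGrpCat.{u}]
  {M : SheafOfModules.{u} R} (P : SheafOfModules.Presentation M)
  (F : SheafOfModules.{u} R ⥤ SheafOfModules.{u} S) [PreservesColimitsOfSize.{u, u} F]
  (η : SheafOfModules.unit S ≅ F.obj (SheafOfModules.unit R))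

theorem presentation_map_isFinite [P.IsFinite] : (P.map F η).IsFinite where
  isFiniteType_generators := ⟨by
    rw [SheafOfModules.Presentation.map_generators_I]; infer_instance⟩
  isFiniteType_relations := ⟨by
    rw [SheafOfModules.Presentation.map_relations_I]; infer_instance⟩

theorem presentation_map_isIso_π (h : IsIso P.generators.π) :
    IsIso (P.map F η).generators.π := by
  rw [SheafOfModules.Presentation.map_π_eq]
  have h1 : IsIso (SheafOfModules.mapFreeIso F P.generators.I η).hom := Iso.isIso_hom _
  have h2 : IsIso (F.map P.generators.π) := Functor.map_isIso F _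
  exact IsIso.comp_isIso' h1 h2

theorem presentation_ofIsIso_isIso_π {N : SheafOfModules.{u} R} (f : M ⟶ N) [IsIso f]
    (h : IsIso P.generators.π) : IsIso (P.ofIsIso f).generators.π := by
  have : (P.ofIsIso f).generators.π = P.generators.π ≫ f :=
    SheafOfModules.GeneratingSections.ofEpi_π _ _
  rw [this]
  exact IsIso.comp_isIso' h inferInstance

end Map

end Site

section Scheme

variable {X : Scheme.{u}} (M : X.Modules)

set_option backward.isDefEq.respectTransparency false in
/-- A presentation of the restriction `M.restrict U.ι` gives a presentation of `M.over U`. -/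
noncomputable def presentationOverOfRestrict (U : X.Opens)
    (P : (M.restrict U.ι).Presentation) : (SheafOfModules.over M U).Presentation :=
  haveI : PreservesColimitsOfSize.{u, u} (Scheme.Modules.overEquiv U).inverse := inferInstance
  SheafOfModules.Presentation.ofIsIso.{u, u, u}
    ((Scheme.Modules.overEquiv U).inverse.mapIso ((Scheme.Modules.overFunctorEquiv U).app M).symm ≪≫
      ((Scheme.Modules.overEquiv U).unitIso.app _).symm).hom
    (P.map (Scheme.Modules.overEquiv U).inverse
      (TopologicalSpace.Opens.sheafOfModulesEquivOverInverseUnit _ _).symm)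

set_option backward.isDefEq.respectTransparency false in
theorem presentationOverOfRestrict_isFinite (U : X.Opens)
    (P : (M.restrict U.ι).Presentation) [P.IsFinite] :
    (presentationOverOfRestrict M U P).IsFinite := by
  unfold presentationOverOfRestrict
  have : PreservesColimitsOfSize.{u, u} (Scheme.Modules.overEquiv U).inverse := inferInstance
  have := presentation_map_isFinite P (Scheme.Modules.overEquiv U).inverse
      (TopologicalSpace.Opens.sheafOfModulesEquivOverInverseUnit _ _).symm
  infer_instance

set_option backward.isDefEq.respectTransparency false in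
theorem presentationOverOfRestrict_isIso_π (U : X.Opens)
    (P : (M.restrict U.ι).Presentation) (h : IsIso P.generators.π) :
    IsIso (presentationOverOfRestrict M U P).generators.π := by
  unfold presentationOverOfRestrict
  have : PreservesColimitsOfSize.{u, u} (Scheme.Modules.overEquiv U).inverse := inferInstance
  exact presentation_ofIsIso_isIso_π _ _ (presentation_map_isIso_π P
    (Scheme.Modules.overEquiv U).inverse
      (TopologicalSpace.Opens.sheafOfModulesEquivOverInverseUnit _ _).symm h)

/-- Quasi-coherent data from presentations of the restrictions to the members of an open cover. -/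
noncomputable def quasicoherentDataOfRestrict {ι : Type u} (U : ι → X.Opens)
    (hU : TopologicalSpace.IsOpenCover U) (P : ∀ i, (M.restrict (U i).ι).Presentation) :
    M.QuasicoherentData where
  I := ι
  X := U
  coversTop := (Opens.coversTop_iff _ U).mpr hU
  presentation i := presentationOverOfRestrict M (U i) (P i)

/-- If the restrictions of `M` to the members of an open cover admit presentations, then `M`
is quasi-coherent. (Converse of `Scheme.Modules.exists_isOpenCover_presentation`.) -/
theorem isQuasicoherent_of_isOpenCover_presentation {ι : Type u} (U : ι → X.Opens)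
    (hU : TopologicalSpace.IsOpenCover U) (P : ∀ i, Nonempty (M.restrict (U i).ι).Presentation) :
    M.IsQuasicoherent :=
  (quasicoherentDataOfRestrict M U hU fun i => (P i).some).isQuasicoherent

set_option backward.isDefEq.respectTransparency false in
/-- A presentation of the restriction of `M` along an open immersion `j` gives a presentation of
the restriction of `M` to the open subscheme `j.opensRange`. -/
noncomputable def presentationRestrictOpensRange {U : Scheme.{u}} (j : U ⟶ X) [IsOpenImmersion j]
    (P : (M.restrict j).Presentation) : (M.restrict j.opensRange.ι).Presentation :=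
  SheafOfModules.Presentation.ofIsIso.{u, u, u}
    (((Scheme.Modules.restrictFunctorComp j.isoOpensRange.inv j).app M).symm ≪≫
      (Scheme.Modules.restrictFunctorCongr j.isoOpensRange_inv_comp).app M).hom
    (Scheme.Modules.presentationRestrict j.isoOpensRange.inv P)

/-- If the restrictions of `M` along a jointly surjective family of open immersions admit
presentations, then `M` is quasi-coherent. -/
theorem isQuasicoherent_of_openImmersion_presentations {ι : Type u} (U : ι → Scheme.{u})
    (j : ∀ i, U i ⟶ X) [∀ i, IsOpenImmersion (j i)]
    (hcov : ∀ x : X, ∃ i, x ∈ Set.range (j i))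
    (P : ∀ i, Nonempty (M.restrict (j i)).Presentation) : M.IsQuasicoherent := by
  refine isQuasicoherent_of_isOpenCover_presentation M (fun i => (j i).opensRange) ?_
    (fun i => ⟨presentationRestrictOpensRange M (j i) (P i).some⟩)
  refine TopologicalSpace.Opens.ext <| Set.eq_univ_of_forall fun x => ?_
  obtain ⟨i, hi⟩ := hcov x
  exact TopologicalSpace.Opens.mem_iSup.mpr ⟨i, hi⟩

set_option backward.isDefEq.respectTransparency false in
/-- Quasi-coherence is local: if the restrictions of `M` along a jointly surjective family of
open immersions are quasi-coherent, then `M` is quasi-coherent. -/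
theorem isQuasicoherent_of_openImmersion_cover {ι : Type u} (U : ι → Scheme.{u})
    (j : ∀ i, U i ⟶ X) [∀ i, IsOpenImmersion (j i)]
    (hcov : ∀ x : X, ∃ i, x ∈ Set.range (j i))
    (h : ∀ i, (M.restrict (j i)).IsQuasicoherent) : M.IsQuasicoherent := by
  choose κ V P hV _ using fun i => (M.restrict (j i)).exists_isOpenCover_presentation
  refine isQuasicoherent_of_openImmersion_presentations M
    (fun ik : Σ i, κ i => (V ik.1 ik.2).toScheme) (fun ik => (V ik.1 ik.2).ι ≫ j ik.1)
    (fun x => ?_) (fun ik => ⟨?_⟩)
  · obtain ⟨i, y, rfl⟩ := hcov x
    have hy : y ∈ (⨆ k, V i k : (U i).Opens) := by rw [(hV i).iSup_eq_top]; trivial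
    obtain ⟨k, hk⟩ := TopologicalSpace.Opens.mem_iSup.mp hy
    exact ⟨⟨i, k⟩, ⟨y, hk⟩, rfl⟩
  · exact SheafOfModules.Presentation.ofIsIso.{u, u, u}
      ((Scheme.Modules.restrictFunctorComp (V ik.1 ik.2).ι (j ik.1)).app M).inv (P ik.1 ik.2)

/-- Quasi-coherence is local on an open cover. -/
theorem isQuasicoherent_of_isOpenCover {ι : Type u} (U : ι → X.Opens)
    (hU : TopologicalSpace.IsOpenCover U) (h : ∀ i, (M.restrict (U i).ι).IsQuasicoherent) :
    M.IsQuasicoherent := by
  refine isQuasicoherent_of_openImmersion_cover M (fun i => (U i).toScheme) (fun i => (U i).ι)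
    (fun x => ?_) h
  have hx : x ∈ (⨆ i, U i : X.Opens) := by rw [hU.iSup_eq_top]; trivial
  obtain ⟨i, hi⟩ := TopologicalSpace.Opens.mem_iSup.mp hx
  exact ⟨i, by simpa using hi⟩

/-- Restriction form of the local trivializations of an invertible module. -/
theorem exists_restrict_iso_unit (h : Scheme.Modules.IsInvertible M) (x : X) :
    ∃ U : X.Opens, x ∈ U ∧
      Nonempty (M.restrict U.ι ≅ SheafOfModules.unit U.toScheme.ringCatSheaf) := by
  obtain ⟨U, hxU, ⟨t⟩⟩ := h.1 x
  exact ⟨U, hxU, ⟨(Scheme.Modules.restrictFunctorIsoPullback U.ι).app M ≪≫ t⟩⟩

/-- A module isomorphic to the unit has a presentation with one generator and no relation. -/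
noncomputable def presentationOfIsoUnit {U : Scheme.{u}} {N : U.Modules}
    (e : N ≅ SheafOfModules.unit U.ringCatSheaf) : N.Presentation :=
  @SheafOfModules.Presentation.ofIsIso _ _ _ _ _ _ _ _ e.inv
    ⟨e.hom, e.inv_hom_id, e.hom_inv_id⟩ presentationUnit

theorem presentationOfIsoUnit_isFinite {U : Scheme.{u}} {N : U.Modules}
    (e : N ≅ SheafOfModules.unit U.ringCatSheaf) : (presentationOfIsoUnit e).IsFinite := by
  unfold presentationOfIsoUnit
  exact @SheafOfModules.instIsFiniteOfIsIso _ _ _ _ _ _ _ _ e.inv
    ⟨e.hom, e.inv_hom_id, e.hom_inv_id⟩ presentationUnit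
    (presentationUnit_isFinite (R := U.ringCatSheaf))

theorem presentationOfIsoUnit_isIso_π {U : Scheme.{u}} {N : U.Modules}
    (e : N ≅ SheafOfModules.unit U.ringCatSheaf) :
    IsIso (presentationOfIsoUnit e).generators.π := by
  unfold presentationOfIsoUnit
  exact @presentation_ofIsIso_isIso_π _ _ _ _ _ _ _ presentationUnit _ e.inv
    ⟨e.hom, e.inv_hom_id, e.hom_inv_id⟩ presentationUnit_isIso_π

/-- The quasi-coherent data of an invertible module given by a choice of local trivializations:
the index set is the set of points of `X`. -/
noncomputable def quasicoherentDataOfIsInvertible (h : Scheme.Modules.IsInvertible M) :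
    M.QuasicoherentData :=
  quasicoherentDataOfRestrict M (fun x : X => (exists_restrict_iso_unit M h x).choose)
    (TopologicalSpace.Opens.ext <| Set.eq_univ_of_forall fun x =>
      TopologicalSpace.Opens.mem_iSup.mpr ⟨x, (exists_restrict_iso_unit M h x).choose_spec.1⟩)
    (fun x => presentationOfIsoUnit (exists_restrict_iso_unit M h x).choose_spec.2.some)

/-- **G3 (part 2).** An invertible module is quasi-coherent. -/
theorem isQuasicoherent_of_isInvertible (h : Scheme.Modules.IsInvertible M) :
    M.IsQuasicoherent :=
  (quasicoherentDataOfIsInvertible M h).isQuasicoherent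

theorem quasicoherentDataOfIsInvertible_isFinitePresentation
    (h : Scheme.Modules.IsInvertible M) :
    (quasicoherentDataOfIsInvertible M h).IsFinitePresentation where
  isFinite_presentation x :=
    haveI := presentationOfIsoUnit_isFinite (exists_restrict_iso_unit M h x).choose_spec.2.some
    presentationOverOfRestrict_isFinite M _ _

/-- An invertible module is of finite presentation. -/
theorem isFinitePresentation_of_isInvertible (h : Scheme.Modules.IsInvertible M) :
    M.IsFinitePresentation := by
  have h' := quasicoherentDataOfIsInvertible_isFinitePresentation M h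
  exact SheafOfModules.IsFinitePresentation.mk.{u, u, u}
    (Exists.intro (quasicoherentDataOfIsInvertible M h) h')

/-- An invertible module is locally free. -/
theorem isLocallyFree_of_isInvertible (h : Scheme.Modules.IsInvertible M) :
    M.IsLocallyFree := by
  have h1 : ∀ x : X, IsIso ((quasicoherentDataOfIsInvertible M h).presentation x).generators.π :=
    fun x => presentationOverOfRestrict_isIso_π M (exists_restrict_iso_unit M h x).choose
      (presentationOfIsoUnit (exists_restrict_iso_unit M h x).choose_spec.2.some)
      (presentationOfIsoUnit_isIso_π (exists_restrict_iso_unit M h x).choose_spec.2.some)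
  have h' : (quasicoherentDataOfIsInvertible M h).localGeneratorsData.IsLocallyFreeData := by
    constructor
    exact h1
  exact (quasicoherentDataOfIsInvertible M h).localGeneratorsData.isLocallyFree

end Scheme

end Fermat.Agent.S25.H206
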