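/-
S25 / block ABEL / AB-ALG leaf AA6 (helper206): module-level lemmas about invertible modules
used for the "divisor of a section" construction.  Mathlib only.
-/
import Mathlib

set_option autoImplicit false
set_option linter.style.haveILetI false

namespace Fermat.Agent.S25.H206

open TensorProduct Module

section Invertible

variable {R : Type*} [CommRing R] {M N : Type*} [AddCommGroup M] [Module R M]
  [AddCommGroup N] [Module R N]

/-- `Hom` of invertible modules is invertible (local copy, Mathlib only). -/
theorem surj_invertible_hom [Module.Invertible R M] [Module.Invertible R N] :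
    Module.Invertible R (M →ₗ[R] N) :=
  Module.Invertible.congr (LinearEquiv.ofBijective (dualTensorHom R M N) dualTensorHom_bijective)

/-- The rank-one identity in an invertible module. -/
theorem dual_apply_smul_comm [Module.Invertible R M] (l : Module.Dual R M) (m m' : M) :
    l m • m' = l m' • m := by
  have h := Module.Invertible.tmul_comm (R := R) (m₁ := m) (m₂ := m')
  have h2 := congrArg (fun z => TensorProduct.lid R M (l.rTensor M z)) h
  simpa using h2

variable (R M N) in
/-- The evaluation pairing `M ⊗ Hom(M, N) → N`. -/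
noncomputable def evalPair : M ⊗[R] (M →ₗ[R] N) →ₗ[R] N :=
  TensorProduct.lift (LinearMap.applyₗ (R := R) (M := M) (M₂ := N))

@[simp] theorem evalPair_tmul (m : M) (t : M →ₗ[R] N) : evalPair R M N (m ⊗ₜ t) = t m := by
  simp [evalPair]

/-- Every element of `N` is a sum of values `t m` when `M` is invertible. -/
theorem evalPair_surjective [Module.Invertible R M] : Function.Surjective (evalPair R M N) := by
  intro n
  obtain ⟨z, hz⟩ := (Module.Invertible.bijective (R := R) (M := M)).2 (1 : R)
  let Ψ : Module.Dual R M ⊗[R] M →ₗ[R] M ⊗[R] (M →ₗ[R] N) :=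
    (TensorProduct.comm R (M →ₗ[R] N) M).toLinearMap ∘ₗ
      TensorProduct.map ((LinearMap.smulRightₗ (R := R) (M := N) (M₂ := M)).flip n) LinearMap.id
  have key : ∀ w, evalPair R M N (Ψ w) = contractLeft R M w • n := by
    intro w
    induction w using TensorProduct.induction_on with
    | zero => simp
    | tmul l m => simp [Ψ]
    | add a b ha hb => simp only [map_add, ha, hb, add_smul]
  exact ⟨Ψ z, by rw [key, hz, one_smul]⟩

theorem evalPair_bijective [Module.Invertible R M] [Module.Invertible R N] :
    Function.Bijective (evalPair R M N) := by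
  haveI : Module.Invertible R (M →ₗ[R] N) := surj_invertible_hom
  exact Module.Invertible.bijective_of_surjective evalPair_surjective

/-- Reflexivity: `M → Hom(Hom(M, N), N)` is bijective for invertible `M`, `N`. -/
theorem applyₗ_bijective [Module.Invertible R M] [Module.Invertible R N] :
    Function.Bijective (LinearMap.applyₗ (R := R) (M := M) (M₂ := N)) := by
  haveI : Module.Invertible R (M →ₗ[R] N) := surj_invertible_hom
  haveI : Module.Invertible R ((M →ₗ[R] N) →ₗ[R] N) := surj_invertible_hom
  apply Module.Invertible.bijective_of_surjective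
  intro Θ
  let P := M →ₗ[R] N
  let e : M ⊗[R] P ≃ₗ[R] N := LinearEquiv.ofBijective (evalPair R M N) evalPair_bijective
  let eP : P ⊗[R] Module.Dual R P ≃ₗ[R] R :=
    TensorProduct.comm R P (Module.Dual R P) ≪≫ₗ Module.Invertible.linearEquiv R P
  let f' : R ⊗[R] P →ₗ[R] M ⊗[R] P :=
    e.symm.toLinearMap ∘ₗ Θ ∘ₗ (TensorProduct.lid R P).toLinearMap
  let f : R →ₗ[R] M := (Module.Invertible.rTensorEquiv R M eP).symm f'
  have hf : f.rTensor P = f' := (Module.Invertible.rTensorEquiv R M eP).apply_symm_apply f'
  refine ⟨f 1, ?_⟩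
  ext p
  have h1 : f' ((1 : R) ⊗ₜ p) = f 1 ⊗ₜ p := by rw [← hf]; simp
  have h2 : e (f' ((1 : R) ⊗ₜ p)) = Θ p := by simp [f']
  rw [h1] at h2
  have h3 : e (f 1 ⊗ₜ p) = p (f 1) := evalPair_tmul _ _
  exact h3.symm.trans h2

/-- An invertible module over a domain is torsion-free. -/
theorem smul_eq_zero_of_invertible [IsDomain R] [Module.Invertible R N] {r : R} {n : N}
    (h : r • n = 0) (hr : r ≠ 0) : n = 0 := by
  apply (Module.bijective_dual_eval R N).injective
  rw [map_zero]
  ext l
  have h1 : l (r • n) = 0 := by rw [h, map_zero]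
  rw [map_smul, smul_eq_mul] at h1
  simpa using (mul_eq_zero.mp h1).resolve_left hr

/-- A nonzero linear map between invertible modules over a domain is injective. -/
theorem injective_of_ne_zero_of_invertible [IsDomain R] [Module.Invertible R M]
    [Module.Invertible R N] (f : M →ₗ[R] N) (hf : f ≠ 0) : Function.Injective f := by
  rw [injective_iff_map_eq_zero]
  intro m hm
  by_contra hne
  have hl : ∃ l : Module.Dual R M, l m ≠ 0 := by
    by_contra hcon
    push Not at hcon
    apply hne
    apply (Module.bijective_dual_eval R M).injective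
    rw [map_zero]
    ext l
    simpa using hcon l
  obtain ⟨l, hl⟩ := hl
  apply hf
  ext m₀
  have h1 : l m • f m₀ = 0 := by
    rw [← map_smul, dual_apply_smul_comm l m m₀, map_smul, hm, smul_zero]
  simpa using smul_eq_zero_of_invertible h1 hl

theorem lsmul_bijective (E : Type*) [AddCommGroup E] [Module R E] [Module.Invertible R E] :
    Function.Bijective (LinearMap.lsmul R E) := by
  have h : ⇑(LinearMap.lsmul R E) = ⇑(Module.toModuleEnd R (S := R) E) := by
    funext r
    ext a
    rfl
  rw [h]
  exact Module.Invertible.toModuleEnd_bijective R E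

/-- The scalar by which an endomorphism of an invertible module acts. -/
noncomputable def endScalar (E : Type*) [AddCommGroup E] [Module R E] [Module.Invertible R E] :
    (E →ₗ[R] E) ≃ₗ[R] R :=
  (LinearEquiv.ofBijective (LinearMap.lsmul R E) (lsmul_bijective E)).symm

theorem endScalar_smul {E : Type*} [AddCommGroup E] [Module R E] [Module.Invertible R E]
    (f : E →ₗ[R] E) (a : E) : endScalar (R := R) E f • a = f a := by
  have h : (LinearEquiv.ofBijective (LinearMap.lsmul R E) (lsmul_bijective E))
      (endScalar (R := R) E f) = f :=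
    LinearEquiv.apply_symm_apply _ f
  have h2 := congrArg (fun g : E →ₗ[R] E => g a) h
  simpa using h2

theorem endScalar_unique {E : Type*} [AddCommGroup E] [Module R E] [Module.Invertible R E]
    (f : E →ₗ[R] E) (r : R) (h : ∀ a, r • a = f a) : endScalar (R := R) E f = r := by
  have hf : f = (LinearEquiv.ofBijective (LinearMap.lsmul R E) (lsmul_bijective E)) r := by
    ext a
    simpa using (h a).symm
  rw [hf]
  exact LinearEquiv.symm_apply_apply _ r

/-- If `t ∘ s` is multiplication by `r` then so is `s ∘ t` (invertible modules over a reduced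
ring). -/
theorem comp_eq_smul_of_comp_eq_smul {E G : Type*} [AddCommGroup E] [Module R E]
    [AddCommGroup G] [Module R G] [IsReduced R] [Module.Invertible R E] [Module.Invertible R G]
    (s : E →ₗ[R] G) (t : G →ₗ[R] E) (r : R) (h : ∀ a, t (s a) = r • a) (γ : G) :
    s (t γ) = r • γ := by
  set u : R := endScalar (R := R) G (s ∘ₗ t) with hu
  have hu' : ∀ γ, u • γ = s (t γ) := fun γ => endScalar_smul (s ∘ₗ t) γ
  have h1 : ∀ γ : G, (u * u) • γ = (r * u) • γ := by
    intro γ
    calc (u * u) • γ = u • (s (t γ)) := by rw [mul_smul, hu' γ]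
      _ = s (t (s (t γ))) := hu' _
      _ = s (r • t γ) := by rw [h (t γ)]
      _ = r • s (t γ) := map_smul _ _ _
      _ = (r * u) • γ := by rw [mul_smul, hu' γ]
  have h2 : ∀ a : E, (r * r) • a = (u * r) • a := by
    intro a
    calc (r * r) • a = r • t (s a) := by rw [mul_smul, h a]
      _ = t (s (r • a)) := by rw [map_smul, map_smul]
      _ = t (s (t (s a))) := by rw [h a]
      _ = t (u • s a) := by rw [hu' (s a)]
      _ = u • t (s a) := map_smul _ _ _
      _ = (u * r) • a := by rw [mul_smul, h a]
  have e1 : u * u = r * u :=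
    (lsmul_bijective (R := R) G).injective (LinearMap.ext h1)
  have e2 : r * r = u * r :=
    (lsmul_bijective (R := R) E).injective (LinearMap.ext h2)
  have e3 : (u - r) ^ 2 = 0 := by
    have : (u - r) ^ 2 = u * u - r * u - (u * r - r * r) := by ring
    rw [this, e1, e2]; ring
  have e4 : u = r := sub_eq_zero.mp (pow_eq_zero_iff (two_ne_zero) |>.mp e3)
  rw [← hu' γ, e4]

/-- An invertible module over a nontrivial ring is nontrivial. -/
theorem exists_ne_zero_of_invertible [Nontrivial R] (E : Type*) [AddCommGroup E] [Module R E]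
    [Module.Invertible R E] : ∃ a : E, a ≠ 0 := by
  by_contra hcon
  push Not at hcon
  have h : (1 : R) = 0 := by
    apply (lsmul_bijective (R := R) E).injective
    ext a
    simp [hcon a]
  exact one_ne_zero h

/-- The scalar of `t ∘ s`, as a linear map in `t`. -/
noncomputable def compScalar {E G : Type*} [AddCommGroup E] [Module R E]
    [AddCommGroup G] [Module R G] [Module.Invertible R E] (s : E →ₗ[R] G) :
    (G →ₗ[R] E) →ₗ[R] R :=
  (endScalar (R := R) E).toLinearMap ∘ₗ LinearMap.lcomp R E s

theorem compScalar_smul {E G : Type*} [AddCommGroup E] [Module R E]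
    [AddCommGroup G] [Module R G] [Module.Invertible R E] (s : E →ₗ[R] G) (t : G →ₗ[R] E)
    (a : E) : compScalar s t • a = t (s a) :=
  endScalar_smul (t ∘ₗ s) a

theorem compScalar_unique {E G : Type*} [AddCommGroup E] [Module R E]
    [AddCommGroup G] [Module R G] [Module.Invertible R E] (s : E →ₗ[R] G) (t : G →ₗ[R] E)
    (r : R) (h : ∀ a, r • a = t (s a)) : compScalar s t = r :=
  endScalar_unique (t ∘ₗ s) r h

theorem compScalar_injective {E G : Type*} [AddCommGroup E] [Module R E]
    [AddCommGroup G] [Module R G] [IsDomain R] [Module.Invertible R E] [Module.Invertible R G]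
    (s : E →ₗ[R] G) (hs : Function.Injective s) : Function.Injective (compScalar s) := by
  rw [injective_iff_map_eq_zero]
  intro t ht
  by_contra hne
  have hinj := injective_of_ne_zero_of_invertible t hne
  obtain ⟨a, ha⟩ := exists_ne_zero_of_invertible (R := R) E
  apply ha
  apply hs
  apply hinj
  rw [← compScalar_smul, ht, zero_smul, map_zero, map_zero]

/-- `s (t γ) = c(t) • γ`. -/
theorem apply_apply_eq_compScalar_smul {E G : Type*} [AddCommGroup E] [Module R E]
    [AddCommGroup G] [Module R G] [IsReduced R] [Module.Invertible R E] [Module.Invertible R G]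
    (s : E →ₗ[R] G) (t : G →ₗ[R] E) (γ : G) : s (t γ) = compScalar s t • γ :=
  comp_eq_smul_of_comp_eq_smul s t _ (fun a => (compScalar_smul s t a).symm) γ

/-- The image of `s` is `I • G`, where `I` is the ideal of scalars `c(t)`. -/
theorem range_eq_range_compScalar_smul_top {E G : Type*} [AddCommGroup E] [Module R E]
    [AddCommGroup G] [Module R G] [IsReduced R] [Module.Invertible R E] [Module.Invertible R G]
    (s : E →ₗ[R] G) :
    LinearMap.range s = (LinearMap.range (compScalar s) : Ideal R) • (⊤ : Submodule R G) := by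
  apply le_antisymm
  · rintro _ ⟨a, rfl⟩
    obtain ⟨z, rfl⟩ := evalPair_surjective (R := R) (M := G) (N := E) a
    induction z using TensorProduct.induction_on with
    | zero => simp
    | tmul γ t =>
      rw [evalPair_tmul, apply_apply_eq_compScalar_smul]
      exact Submodule.smul_mem_smul ⟨t, rfl⟩ Submodule.mem_top
    | add z w hz hw =>
      rw [map_add, map_add]
      exact Submodule.add_mem _ hz hw
  · rw [Submodule.smul_le]
    rintro _ ⟨t, rfl⟩ γ _
    exact ⟨t γ, apply_apply_eq_compScalar_smul s t γ⟩

/-- The isomorphism `G ≃ Hom(I, E)`, `γ ↦ (c(t) ↦ t γ)`, for an injective `c : Hom(G, E) → R`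
with image `I`. -/
noncomputable def divEquiv {E G : Type*} [AddCommGroup E] [Module R E]
    [AddCommGroup G] [Module R G] [Module.Invertible R E] [Module.Invertible R G]
    (c : (G →ₗ[R] E) →ₗ[R] R) (hc : Function.Injective c) :
    G ≃ₗ[R] (LinearMap.range c →ₗ[R] E) :=
  (LinearEquiv.ofBijective (LinearMap.applyₗ (R := R) (M := G) (M₂ := E)) applyₗ_bijective) ≪≫ₗ
    LinearEquiv.congrLeft E R (LinearEquiv.ofInjective c hc)

theorem divEquiv_apply {E G : Type*} [AddCommGroup E] [Module R E]
    [AddCommGroup G] [Module R G] [Module.Invertible R E] [Module.Invertible R G]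
    (c : (G →ₗ[R] E) →ₗ[R] R) (hc : Function.Injective c) (γ : G) (t : G →ₗ[R] E)
    (j : LinearMap.range c) (hj : (j : R) = c t) :
    divEquiv c hc γ j = t γ := by
  have hj' : j = LinearEquiv.ofInjective c hc t := Subtype.ext hj
  subst hj'
  simp [divEquiv, LinearEquiv.congrLeft]

end Invertible

section Ideal

variable {R : Type*} [CommRing R] {N : Type*} [AddCommGroup N] [Module R N]

/-- The map `N → Hom(I, N)`, `γ ↦ (a ↦ a • γ)`, for an ideal `I`. -/
noncomputable def idealSmulHom (I : Ideal R) (N : Type*) [AddCommGroup N] [Module R N] :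
    N →ₗ[R] (I →ₗ[R] N) :=
  LinearMap.smulRightₗ (R := R) (M := N) (M₂ := I) (Submodule.subtype I)

@[simp] theorem idealSmulHom_apply (I : Ideal R) (γ : N) (a : I) :
    idealSmulHom I N γ a = (a : R) • γ := rfl

/-- The image of `N` in `Hom(I, N)` is `I • Hom(I, N)` when `I` is invertible. -/
theorem range_idealSmulHom (I : Ideal R) [Module.Invertible R I] :
    LinearMap.range (idealSmulHom I N) = I • (⊤ : Submodule R (I →ₗ[R] N)) := by
  have key : ∀ (a : I) (φ : I →ₗ[R] N), (a : R) • φ = idealSmulHom I N (φ a) := by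
    intro a φ
    ext b
    simp only [LinearMap.smul_apply, idealSmulHom_apply]
    rw [← map_smul, ← map_smul]
    congr 1
    ext
    simp [mul_comm]
  apply le_antisymm
  · rintro _ ⟨γ, rfl⟩
    obtain ⟨z, rfl⟩ := evalPair_surjective (R := R) (M := I) (N := N) γ
    induction z using TensorProduct.induction_on with
    | zero => simp
    | tmul a φ =>
      rw [evalPair_tmul, ← key]
      exact Submodule.smul_mem_smul a.2 Submodule.mem_top
    | add z w hz hw =>
      rw [map_add, map_add]
      exact Submodule.add_mem _ hz hw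
  · rw [Submodule.smul_le]
    intro a ha φ _
    exact ⟨φ ⟨a, ha⟩, (key ⟨a, ha⟩ φ).symm⟩

end Ideal

section Finrank

variable {K R : Type*} [Field K] [CommRing R] [Algebra K R]

/-- `N / I N ≃ R / I` as `K`-vector spaces, for an invertible module `N` when `R / I` is
finite-dimensional. -/
theorem nonempty_quotient_smul_top_equiv (I : Ideal R) (N : Type*) [AddCommGroup N] [Module R N]
    [Module K N] [IsScalarTower K R N] [Module.Invertible R N] [Module.Finite K (R ⧸ I)] :
    Nonempty ((N ⧸ (I • ⊤ : Submodule R N)) ≃ₗ[K] (R ⧸ I)) := by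
  haveI : IsArtinianRing (R ⧸ I) := IsArtinianRing.of_finite K (R ⧸ I)
  haveI : Module.Free (R ⧸ I) ((R ⧸ I) ⊗[R] N) := inferInstance
  obtain ⟨e⟩ := Module.Invertible.free_iff_linearEquiv.mp this
  let e1 : (N ⧸ (I • ⊤ : Submodule R N)) ≃ₗ[R] (R ⧸ I) ⊗[R] N :=
    (TensorProduct.quotTensorEquivQuotSMul N I).symm
  let e2 : (N ⧸ (I • ⊤ : Submodule R N)) ≃ₗ[K] (R ⧸ I) ⊗[R] N := e1.restrictScalars K
  let e3 : ((R ⧸ I) ⊗[R] N) ≃ₗ[K] (R ⧸ I) := e.restrictScalars K
  exact ⟨e2 ≪≫ₗ e3⟩

/-- The same for any submodule equal to `I • ⊤`. -/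
theorem nonempty_quotient_equiv_of_eq (I : Ideal R) (N : Type*) [AddCommGroup N] [Module R N]
    [Module K N] [IsScalarTower K R N] [Module.Invertible R N] [Module.Finite K (R ⧸ I)]
    (p : Submodule R N) (hp : p = I • ⊤) : Nonempty ((N ⧸ p) ≃ₗ[K] (R ⧸ I)) := by
  subst hp
  exact nonempty_quotient_smul_top_equiv I N

theorem finite_quotient_of_eq (I : Ideal R) (N : Type*) [AddCommGroup N] [Module R N]
    [Module K N] [IsScalarTower K R N] [Module.Invertible R N] [Module.Finite K (R ⧸ I)]
    (p : Submodule R N) (hp : p = I • ⊤) : Module.Finite K (N ⧸ p) := by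
  obtain ⟨e⟩ := nonempty_quotient_equiv_of_eq (K := K) I N p hp
  exact Module.Finite.equiv e.symm

theorem finrank_quotient_of_eq (I : Ideal R) (N : Type*) [AddCommGroup N] [Module R N]
    [Module K N] [IsScalarTower K R N] [Module.Invertible R N] [Module.Finite K (R ⧸ I)]
    (p : Submodule R N) (hp : p = I • ⊤) : finrank K (N ⧸ p) = finrank K (R ⧸ I) := by
  obtain ⟨e⟩ := nonempty_quotient_equiv_of_eq (K := K) I N p hp
  exact e.finrank_eq

end Finrank

end Fermat.Agent.S25.H206
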