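/-
S25 / block ABEL / AB-ALG leaf AA6 (helper206): the divisor of a nonzero morphism of gluing data.

For gluing data `E`, `G` over a cospan of domains and a morphism `s : E → G` that is injective
on the charts, the ideals `I_a = { c(t) | t : G_a → E_a }` (where `t ∘ s = c(t) • id`) form a
Cartier triple and `G ≅ ℋom(O(-D), E)` with `O(-D) = ofIdeals I`.
-/
import Fermat.Agent.S25.H10.DegreeDefs
import Fermat.Agent.S25.H747.GDHom
import Fermat.Agent.S25.H206.SurjAlg

set_option autoImplicit false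
set_option linter.style.haveILetI false
set_option linter.unusedSectionVars false

universe u

open scoped TensorProduct

namespace Fermat.Agent.S25.H206

open Fermat.Agent.S25

noncomputable section

variable {A R₀ R₁ R₀₁ : Type u} [CommRing A] [CommRing R₀] [CommRing R₁]
    [CommRing R₀₁] [Algebra A R₀] [Algebra A R₁] [Algebra A R₀₁] [Algebra R₀ R₀₁]
    [Algebra R₁ R₀₁] [IsScalarTower A R₀ R₀₁] [IsScalarTower A R₁ R₀₁]

/-- The module of sections over the intersection is invertible. -/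
theorem invertible_N₀₁ (G : GlueDatum A R₀ R₁ R₀₁) : Module.Invertible R₀₁ G.N₀₁ :=
  haveI := G.invertible₀
  Module.Invertible.congr G.isBaseChange₀.equiv

section Range

/-! ### The Cartier triple of an injective morphism to the unit datum -/

variable (M : GlueDatum A R₀ R₁ R₀₁) (c₀ : M.N₀ →ₗ[R₀] R₀) (c₁ : M.N₁ →ₗ[R₁] R₁)
  (c₀₁ : M.N₀₁ →ₗ[R₀₁] R₀₁)

theorem map_range_eq₀ (hc₀ : ∀ m, c₀₁ (M.r₀ m) = algebraMap R₀ R₀₁ (c₀ m)) :
    Ideal.map (algebraMap R₀ R₀₁) (LinearMap.range c₀ : Ideal R₀) = LinearMap.range c₀₁ := by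
  apply le_antisymm
  · rw [Ideal.map_le_iff_le_comap]
    rintro _ ⟨m, rfl⟩
    exact ⟨M.r₀ m, hc₀ m⟩
  · rintro _ ⟨n, rfl⟩
    refine M.isBaseChange₀.inductionOn n
      (fun n => c₀₁ n ∈ Ideal.map (algebraMap R₀ R₀₁) (LinearMap.range c₀ : Ideal R₀)) ?_ ?_ ?_ ?_
    · simp
    · intro m
      rw [hc₀]
      exact Ideal.mem_map_of_mem _ ⟨m, rfl⟩
    · intro s n hn
      rw [map_smul]
      exact Ideal.mul_mem_left _ _ hn
    · intro n₁ n₂ h₁ h₂
      rw [map_add]
      exact Ideal.add_mem _ h₁ h₂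

theorem map_range_eq₁ (hc₁ : ∀ m, c₀₁ (M.r₁ m) = algebraMap R₁ R₀₁ (c₁ m)) :
    Ideal.map (algebraMap R₁ R₀₁) (LinearMap.range c₁ : Ideal R₁) = LinearMap.range c₀₁ := by
  apply le_antisymm
  · rw [Ideal.map_le_iff_le_comap]
    rintro _ ⟨m, rfl⟩
    exact ⟨M.r₁ m, hc₁ m⟩
  · rintro _ ⟨n, rfl⟩
    refine M.isBaseChange₁.inductionOn n
      (fun n => c₀₁ n ∈ Ideal.map (algebraMap R₁ R₀₁) (LinearMap.range c₁ : Ideal R₁)) ?_ ?_ ?_ ?_
    · simp
    · intro m
      rw [hc₁]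
      exact Ideal.mem_map_of_mem _ ⟨m, rfl⟩
    · intro s n hn
      rw [map_smul]
      exact Ideal.mul_mem_left _ _ hn
    · intro n₁ n₂ h₁ h₂
      rw [map_add]
      exact Ideal.add_mem _ h₁ h₂

/-- The ranges of an injective morphism `M → unit` form a Cartier triple. -/
theorem isCartierTriple_range
    (hc₀ : ∀ m, c₀₁ (M.r₀ m) = algebraMap R₀ R₀₁ (c₀ m))
    (hc₁ : ∀ m, c₀₁ (M.r₁ m) = algebraMap R₁ R₀₁ (c₁ m))
    (h₀ : Function.Injective c₀) (h₁ : Function.Injective c₁)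
    (h₀₁ : Function.Injective c₀₁) :
    H747.IsCartierTriple (LinearMap.range c₀ : Ideal R₀) (LinearMap.range c₁ : Ideal R₁)
      (LinearMap.range c₀₁ : Ideal R₀₁) where
  map₀ := map_range_eq₀ M c₀ c₀₁ hc₀
  map₁ := map_range_eq₁ M c₁ c₀₁ hc₁
  inv₀ := haveI := M.invertible₀; Module.Invertible.congr (LinearEquiv.ofInjective c₀ h₀)
  inv₁ := haveI := M.invertible₁; Module.Invertible.congr (LinearEquiv.ofInjective c₁ h₁)
  bc₀ := by
    refine (IsBaseChange.iff_of_equiv_comm (LinearEquiv.ofInjective c₀ h₀)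
      (LinearEquiv.ofInjective c₀₁ h₀₁) ?_).mp M.isBaseChange₀
    ext m
    simp [hc₀]
  bc₁ := by
    refine (IsBaseChange.iff_of_equiv_comm (LinearEquiv.ofInjective c₁ h₁)
      (LinearEquiv.ofInjective c₀₁ h₀₁) ?_).mp M.isBaseChange₁
    ext m
    simp [hc₁]

/-- An injective morphism `M → unit` identifies `M` with the datum of its ideal triple. -/
theorem isIso_ofIdeals_range
    (hc₀ : ∀ m, c₀₁ (M.r₀ m) = algebraMap R₀ R₀₁ (c₀ m))
    (hc₁ : ∀ m, c₀₁ (M.r₁ m) = algebraMap R₁ R₀₁ (c₁ m))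
    (h₀ : Function.Injective c₀) (h₁ : Function.Injective c₁)
    (h₀₁ : Function.Injective c₀₁) :
    M.IsIso (H747.ofIdeals A (isCartierTriple_range M c₀ c₁ c₀₁ hc₀ hc₁ h₀ h₁ h₀₁)) :=
  ⟨{  e₀ := LinearEquiv.ofInjective c₀ h₀
      e₁ := LinearEquiv.ofInjective c₁ h₁
      e₀₁ := LinearEquiv.ofInjective c₀₁ h₀₁
      comm₀ := fun m => Subtype.ext (hc₀ m)
      comm₁ := fun m => Subtype.ext (hc₁ m) }⟩

end Range

section Restriction

/-- The restriction map of a gluing datum is injective when `R₀ → R₀₁` is. -/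
theorem r₀_injective (G : GlueDatum A R₀ R₁ R₀₁)
    (h : Function.Injective (algebraMap R₀ R₀₁)) : Function.Injective G.r₀ := by
  haveI := G.invertible₀
  have h1 : Function.Injective ((Algebra.linearMap R₀ R₀₁).rTensor G.N₀) :=
    Module.Flat.rTensor_preserves_injective_linearMap _ h
  have h2 : ∀ n : G.N₀, G.r₀ n =
      G.isBaseChange₀.equiv ((Algebra.linearMap R₀ R₀₁).rTensor G.N₀
        ((TensorProduct.lid R₀ G.N₀).symm n)) := by
    intro n
    simp [IsBaseChange.equiv_tmul]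
  intro a b hab
  rw [h2, h2] at hab
  exact (TensorProduct.lid R₀ G.N₀).symm.injective (h1 (G.isBaseChange₀.equiv.injective hab))

theorem r₁_injective (G : GlueDatum A R₀ R₁ R₀₁)
    (h : Function.Injective (algebraMap R₁ R₀₁)) : Function.Injective G.r₁ := by
  haveI := G.invertible₁
  have h1 : Function.Injective ((Algebra.linearMap R₁ R₀₁).rTensor G.N₁) :=
    Module.Flat.rTensor_preserves_injective_linearMap _ h
  have h2 : ∀ n : G.N₁, G.r₁ n =
      G.isBaseChange₁.equiv ((Algebra.linearMap R₁ R₀₁).rTensor G.N₁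
        ((TensorProduct.lid R₁ G.N₁).symm n)) := by
    intro n
    simp [IsBaseChange.equiv_tmul]
  intro a b hab
  rw [h2, h2] at hab
  exact (TensorProduct.lid R₁ G.N₁).symm.injective (h1 (G.isBaseChange₁.equiv.injective hab))

end Restriction

section Div

/-! ### The divisor of a morphism `s : E → G` -/

variable {E G : GlueDatum A R₀ R₁ R₀₁} (s : H10.GDHom E G)

/-- A morphism injective on chart `0` is injective on the intersection (cospan of domains). -/
theorem f₀₁_injective_of [IsDomain R₀₁] (h : Function.Injective (algebraMap R₀ R₀₁))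
    (hs₀ : Function.Injective s.f₀) [Nontrivial R₀] : Function.Injective s.f₀₁ := by
  haveI := invertible_N₀₁ E
  haveI := invertible_N₀₁ G
  haveI := E.invertible₀
  apply injective_of_ne_zero_of_invertible
  intro h0
  obtain ⟨a, ha⟩ := exists_ne_zero_of_invertible (R := R₀) E.N₀
  apply ha
  apply hs₀
  apply r₀_injective G h
  rw [← s.comm₀, h0, map_zero, map_zero]
  rfl

/-- A morphism injective on chart `1` is injective on the intersection (cospan of domains). -/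
theorem f₀₁_injective_of' [IsDomain R₀₁] (h : Function.Injective (algebraMap R₁ R₀₁))
    (hs₁ : Function.Injective s.f₁) [Nontrivial R₁] : Function.Injective s.f₀₁ := by
  haveI := invertible_N₀₁ E
  haveI := invertible_N₀₁ G
  haveI := E.invertible₁
  apply injective_of_ne_zero_of_invertible
  intro h0
  obtain ⟨a, ha⟩ := exists_ne_zero_of_invertible (R := R₁) E.N₁
  apply ha
  apply hs₁
  apply r₁_injective G h
  rw [← s.comm₁, h0, map_zero, map_zero]
  rfl

/-- A morphism of gluing data over a cospan of domains that is nonzero on one chart is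
injective on both charts and on the intersection. -/
theorem injective_of_ne_zero_chart [IsDomain R₀] [IsDomain R₁] [IsDomain R₀₁]
    (h₀ : Function.Injective (algebraMap R₀ R₀₁)) (h₁ : Function.Injective (algebraMap R₁ R₀₁))
    (hs : s.f₀ ≠ 0 ∨ s.f₁ ≠ 0) :
    Function.Injective s.f₀ ∧ Function.Injective s.f₁ ∧ Function.Injective s.f₀₁ := by
  haveI := E.invertible₀
  haveI := G.invertible₀
  haveI := E.invertible₁
  haveI := G.invertible₁
  haveI := invertible_N₀₁ E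
  have key : Function.Injective s.f₀₁ → s.f₀ ≠ 0 ∧ s.f₁ ≠ 0 := by
    intro hinj
    obtain ⟨a, ha⟩ := exists_ne_zero_of_invertible (R := R₀₁) E.N₀₁
    constructor
    · intro h0
      apply ha
      apply hinj
      rw [map_zero]
      have : s.f₀₁ = 0 := by
        apply E.isBaseChange₀.algHom_ext
        intro b
        rw [s.comm₀, h0]
        simp
      rw [this]; rfl
    · intro h0
      apply ha
      apply hinj
      rw [map_zero]
      have : s.f₀₁ = 0 := by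
        apply E.isBaseChange₁.algHom_ext
        intro b
        rw [s.comm₁, h0]
        simp
      rw [this]; rfl
  rcases hs with hs | hs
  · have i₀ := injective_of_ne_zero_of_invertible s.f₀ hs
    have i₀₁ := f₀₁_injective_of s h₀ i₀
    exact ⟨i₀, injective_of_ne_zero_of_invertible s.f₁ (key i₀₁).2, i₀₁⟩
  · have i₁ := injective_of_ne_zero_of_invertible s.f₁ hs
    have i₀₁ := f₀₁_injective_of' s h₁ i₁
    exact ⟨injective_of_ne_zero_of_invertible s.f₀ (key i₀₁).1, i₁, i₀₁⟩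

/-- The scalar of `t ∘ s` on chart `0`. -/
def divC₀ : (G.N₀ →ₗ[R₀] E.N₀) →ₗ[R₀] R₀ :=
  haveI := E.invertible₀
  compScalar s.f₀

/-- The scalar of `t ∘ s` on chart `1`. -/
def divC₁ : (G.N₁ →ₗ[R₁] E.N₁) →ₗ[R₁] R₁ :=
  haveI := E.invertible₁
  compScalar s.f₁

/-- The scalar of `t ∘ s` on the intersection. -/
def divC₀₁ : (G.N₀₁ →ₗ[R₀₁] E.N₀₁) →ₗ[R₀₁] R₀₁ :=
  haveI := invertible_N₀₁ E
  compScalar s.f₀₁

theorem divC₀₁_r₀ (t : G.N₀ →ₗ[R₀] E.N₀) :
    divC₀₁ s (IsBaseChange.linearMapLeftRightHom G.isBaseChange₀ E.r₀ t) =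
      algebraMap R₀ R₀₁ (divC₀ s t) := by
  haveI := invertible_N₀₁ E
  haveI := E.invertible₀
  apply compScalar_unique
  have key : (algebraMap R₀ R₀₁ (divC₀ s t)) • (LinearMap.id : E.N₀₁ →ₗ[R₀₁] E.N₀₁) =
      (IsBaseChange.linearMapLeftRightHom G.isBaseChange₀ E.r₀ t) ∘ₗ s.f₀₁ := by
    apply E.isBaseChange₀.algHom_ext
    intro a
    simp only [LinearMap.smul_apply, LinearMap.id_coe, id_eq, LinearMap.coe_comp,
      Function.comp_apply]
    rw [s.comm₀, IsBaseChange.linearMapLeftRightHom_comp_apply, algebraMap_smul, ← map_smul]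
    congr 1
    exact compScalar_smul s.f₀ t a
  intro a
  exact congrArg (fun f : E.N₀₁ →ₗ[R₀₁] E.N₀₁ => f a) key

theorem divC₀₁_r₁ (t : G.N₁ →ₗ[R₁] E.N₁) :
    divC₀₁ s (IsBaseChange.linearMapLeftRightHom G.isBaseChange₁ E.r₁ t) =
      algebraMap R₁ R₀₁ (divC₁ s t) := by
  haveI := invertible_N₀₁ E
  haveI := E.invertible₁
  apply compScalar_unique
  have key : (algebraMap R₁ R₀₁ (divC₁ s t)) • (LinearMap.id : E.N₀₁ →ₗ[R₀₁] E.N₀₁) =
      (IsBaseChange.linearMapLeftRightHom G.isBaseChange₁ E.r₁ t) ∘ₗ s.f₀₁ := by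
    apply E.isBaseChange₁.algHom_ext
    intro a
    simp only [LinearMap.smul_apply, LinearMap.id_coe, id_eq, LinearMap.coe_comp,
      Function.comp_apply]
    rw [s.comm₁, IsBaseChange.linearMapLeftRightHom_comp_apply, algebraMap_smul, ← map_smul]
    congr 1
    exact compScalar_smul s.f₁ t a
  intro a
  exact congrArg (fun f : E.N₀₁ →ₗ[R₀₁] E.N₀₁ => f a) key

theorem divC₀_injective [IsDomain R₀] (hs₀ : Function.Injective s.f₀) :
    Function.Injective (divC₀ s) :=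
  haveI := E.invertible₀
  haveI := G.invertible₀
  compScalar_injective s.f₀ hs₀

theorem divC₁_injective [IsDomain R₁] (hs₁ : Function.Injective s.f₁) :
    Function.Injective (divC₁ s) :=
  haveI := E.invertible₁
  haveI := G.invertible₁
  compScalar_injective s.f₁ hs₁

theorem divC₀₁_injective [IsDomain R₀₁] (hs₀₁ : Function.Injective s.f₀₁) :
    Function.Injective (divC₀₁ s) :=
  haveI := invertible_N₀₁ E
  haveI := invertible_N₀₁ G
  compScalar_injective s.f₀₁ hs₀₁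

theorem range_divC₀_ne_bot [IsDomain R₀] (hs₀ : Function.Injective s.f₀) :
    (LinearMap.range (divC₀ s) : Ideal R₀) ≠ ⊥ := by
  haveI := E.invertible₀
  haveI := G.invertible₀
  haveI : Module.Invertible R₀ (G.N₀ →ₗ[R₀] E.N₀) := surj_invertible_hom
  obtain ⟨t, ht⟩ := exists_ne_zero_of_invertible (R := R₀) (G.N₀ →ₗ[R₀] E.N₀)
  intro h
  apply ht
  apply divC₀_injective s hs₀
  rw [map_zero]
  have : divC₀ s t ∈ (LinearMap.range (divC₀ s) : Ideal R₀) := ⟨t, rfl⟩
  rw [h] at this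
  exact this

theorem range_divC₁_ne_bot [IsDomain R₁] (hs₁ : Function.Injective s.f₁) :
    (LinearMap.range (divC₁ s) : Ideal R₁) ≠ ⊥ := by
  haveI := E.invertible₁
  haveI := G.invertible₁
  haveI : Module.Invertible R₁ (G.N₁ →ₗ[R₁] E.N₁) := surj_invertible_hom
  obtain ⟨t, ht⟩ := exists_ne_zero_of_invertible (R := R₁) (G.N₁ →ₗ[R₁] E.N₁)
  intro h
  apply ht
  apply divC₁_injective s hs₁
  rw [map_zero]
  have : divC₁ s t ∈ (LinearMap.range (divC₁ s) : Ideal R₁) := ⟨t, rfl⟩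
  rw [h] at this
  exact this

/-- The image of `s` on chart `0` is `I₀ • G.N₀`. -/
theorem range_f₀_eq [IsDomain R₀] :
    LinearMap.range s.f₀ = (LinearMap.range (divC₀ s) : Ideal R₀) • (⊤ : Submodule R₀ G.N₀) :=
  haveI := E.invertible₀
  haveI := G.invertible₀
  range_eq_range_compScalar_smul_top s.f₀

theorem range_f₁_eq [IsDomain R₁] :
    LinearMap.range s.f₁ = (LinearMap.range (divC₁ s) : Ideal R₁) • (⊤ : Submodule R₁ G.N₁) :=
  haveI := E.invertible₁
  haveI := G.invertible₁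
  range_eq_range_compScalar_smul_top s.f₁

theorem range_f₀₁_eq [IsDomain R₀₁] :
    LinearMap.range s.f₀₁ =
      (LinearMap.range (divC₀₁ s) : Ideal R₀₁) • (⊤ : Submodule R₀₁ G.N₀₁) :=
  haveI := invertible_N₀₁ E
  haveI := invertible_N₀₁ G
  range_eq_range_compScalar_smul_top s.f₀₁

variable [IsDomain R₀] [IsDomain R₁] [IsDomain R₀₁]

/-- **The divisor of `s`** is a Cartier triple. -/
theorem divCartier (hs₀ : Function.Injective s.f₀) (hs₁ : Function.Injective s.f₁)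
    (hs₀₁ : Function.Injective s.f₀₁) :
    H747.IsCartierTriple (LinearMap.range (divC₀ s) : Ideal R₀)
      (LinearMap.range (divC₁ s) : Ideal R₁) (LinearMap.range (divC₀₁ s) : Ideal R₀₁) :=
  isCartierTriple_range (H747.homDatum G E) (divC₀ s) (divC₁ s) (divC₀₁ s)
    (divC₀₁_r₀ s) (divC₀₁_r₁ s) (divC₀_injective s hs₀) (divC₁_injective s hs₁)
    (divC₀₁_injective s hs₀₁)

theorem div_comm₀ (hs₀ : Function.Injective s.f₀) (hs₀₁ : Function.Injective s.f₀₁)
    (hmap : Ideal.map (algebraMap R₀ R₀₁) (LinearMap.range (divC₀ s) : Ideal R₀) ≤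
      (LinearMap.range (divC₀₁ s) : Ideal R₀₁))
    (γ : G.N₀) (j : (LinearMap.range (divC₀ s) : Ideal R₀)) :
    haveI := E.invertible₀
    haveI := G.invertible₀
    haveI := invertible_N₀₁ E
    haveI := invertible_N₀₁ G
    divEquiv (divC₀₁ s) (divC₀₁_injective s hs₀₁) (G.r₀ γ) (H747.idealRes _ _ hmap j) =
      E.r₀ (divEquiv (divC₀ s) (divC₀_injective s hs₀) γ j) := by
  haveI := E.invertible₀
  haveI := G.invertible₀
  haveI := invertible_N₀₁ E
  haveI := invertible_N₀₁ G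
  obtain ⟨t, ht⟩ := j.2
  rw [divEquiv_apply (divC₀ s) (divC₀_injective s hs₀) γ t j ht.symm]
  rw [divEquiv_apply (divC₀₁ s) (divC₀₁_injective s hs₀₁) (G.r₀ γ)
    (IsBaseChange.linearMapLeftRightHom G.isBaseChange₀ E.r₀ t) _
    (by rw [divC₀₁_r₀, ht]; rfl)]
  exact IsBaseChange.linearMapLeftRightHom_comp_apply _ _ _ _

theorem div_comm₁ (hs₁ : Function.Injective s.f₁) (hs₀₁ : Function.Injective s.f₀₁)
    (hmap : Ideal.map (algebraMap R₁ R₀₁) (LinearMap.range (divC₁ s) : Ideal R₁) ≤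
      (LinearMap.range (divC₀₁ s) : Ideal R₀₁))
    (γ : G.N₁) (j : (LinearMap.range (divC₁ s) : Ideal R₁)) :
    haveI := E.invertible₁
    haveI := G.invertible₁
    haveI := invertible_N₀₁ E
    haveI := invertible_N₀₁ G
    divEquiv (divC₀₁ s) (divC₀₁_injective s hs₀₁) (G.r₁ γ) (H747.idealRes _ _ hmap j) =
      E.r₁ (divEquiv (divC₁ s) (divC₁_injective s hs₁) γ j) := by
  haveI := E.invertible₁
  haveI := G.invertible₁
  haveI := invertible_N₀₁ E
  haveI := invertible_N₀₁ G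
  obtain ⟨t, ht⟩ := j.2
  rw [divEquiv_apply (divC₁ s) (divC₁_injective s hs₁) γ t j ht.symm]
  rw [divEquiv_apply (divC₀₁ s) (divC₀₁_injective s hs₀₁) (G.r₁ γ)
    (IsBaseChange.linearMapLeftRightHom G.isBaseChange₁ E.r₁ t) _
    (by rw [divC₀₁_r₁, ht]; rfl)]
  exact IsBaseChange.linearMapLeftRightHom_comp_apply _ _ _ _

/-- **`G ≅ ℋom(O(-D), E)`** for the divisor `D` of an injective morphism `s : E → G`. -/
theorem isIso_homDatum_div (hs₀ : Function.Injective s.f₀) (hs₁ : Function.Injective s.f₁)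
    (hs₀₁ : Function.Injective s.f₀₁) :
    G.IsIso (H747.homDatum (H747.ofIdeals A (divCartier s hs₀ hs₁ hs₀₁)) E) := by
  haveI := E.invertible₀
  haveI := G.invertible₀
  haveI := E.invertible₁
  haveI := G.invertible₁
  haveI := invertible_N₀₁ E
  haveI := invertible_N₀₁ G
  refine ⟨{ e₀ := divEquiv (divC₀ s) (divC₀_injective s hs₀)
            e₁ := divEquiv (divC₁ s) (divC₁_injective s hs₁)
            e₀₁ := divEquiv (divC₀₁ s) (divC₀₁_injective s hs₀₁)
            comm₀ := ?_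
            comm₁ := ?_ }⟩
  · intro γ
    refine (H747.ofIdeals A (divCartier s hs₀ hs₁ hs₀₁)).isBaseChange₀.algHom_ext _ _ ?_
    intro j
    exact (div_comm₀ s hs₀ hs₀₁ (divCartier s hs₀ hs₁ hs₀₁).map₀.le γ j).trans
      (IsBaseChange.linearMapLeftRightHom_comp_apply
        (H747.ofIdeals A (divCartier s hs₀ hs₁ hs₀₁)).isBaseChange₀ E.r₀ _ j).symm
  · intro γ
    refine (H747.ofIdeals A (divCartier s hs₀ hs₁ hs₀₁)).isBaseChange₁.algHom_ext _ _ ?_
    intro j
    exact (div_comm₁ s hs₁ hs₀₁ (divCartier s hs₀ hs₁ hs₀₁).map₁.le γ j).trans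
      (IsBaseChange.linearMapLeftRightHom_comp_apply
        (H747.ofIdeals A (divCartier s hs₀ hs₁ hs₀₁)).isBaseChange₁ E.r₁ _ j).symm

end Div

section Sections

/-! ### Sections of `ℋom(E, G)` are morphisms -/

variable (E G : GlueDatum A R₀ R₁ R₀₁)

theorem cech_eq_zero_iff (G : GlueDatum A R₀ R₁ R₀₁) (p : G.N₀ × G.N₁) :
    G.cech p = 0 ↔ G.r₀ p.1 = G.r₁ p.2 := by
  have h : G.cech p = G.r₀ p.1 + -(G.r₁ p.2) := rfl
  rw [h, ← sub_eq_add_neg, sub_eq_zero]

/-- A section of `ℋom(E, G)` is a morphism `E → G`. -/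
def gdHomOfSection (φ₀ : E.N₀ →ₗ[R₀] G.N₀) (φ₁ : E.N₁ →ₗ[R₁] G.N₁)
    (h : IsBaseChange.linearMapLeftRightHom E.isBaseChange₀ G.r₀ φ₀ =
      IsBaseChange.linearMapLeftRightHom E.isBaseChange₁ G.r₁ φ₁) : H10.GDHom E G where
  f₀ := φ₀
  f₁ := φ₁
  f₀₁ := IsBaseChange.linearMapLeftRightHom E.isBaseChange₀ G.r₀ φ₀
  comm₀ := fun a => IsBaseChange.linearMapLeftRightHom_comp_apply _ _ _ _
  comm₁ := fun a => by
    rw [h]
    exact IsBaseChange.linearMapLeftRightHom_comp_apply _ _ _ _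

/-- A nonzero section of `ℋom(E, G)` gives a morphism which is nonzero on a chart. -/
theorem exists_gdHom_of_H0_ne_bot (h : (H747.homDatum E G).H0 ≠ ⊥) :
    ∃ s : H10.GDHom E G, s.f₀ ≠ 0 ∨ s.f₁ ≠ 0 := by
  obtain ⟨p, hp, hp0⟩ := Submodule.exists_mem_ne_zero_of_ne_bot h
  obtain ⟨φ₀, φ₁⟩ := p
  have h1 : (H747.homDatum E G).r₀ φ₀ = (H747.homDatum E G).r₁ φ₁ :=
    (cech_eq_zero_iff (H747.homDatum E G) (φ₀, φ₁)).mp (LinearMap.mem_ker.mp hp)
  refine ⟨gdHomOfSection E G φ₀ φ₁ h1, ?_⟩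
  by_contra hcon
  push Not at hcon
  apply hp0
  have h0 : φ₀ = 0 := hcon.1
  have h1' : φ₁ = 0 := hcon.2
  rw [h0, h1']
  rfl

end Sections

section IdealDatum

/-! ### The morphisms `O(-D) → O` and `G → ℋom(O(-D), G)` -/

variable {I₀ : Ideal R₀} {I₁ : Ideal R₁} {I₀₁ : Ideal R₀₁} (hI : H747.IsCartierTriple I₀ I₁ I₀₁)

/-- The inclusion `O(-D) → O`. -/
def inclHom : H10.GDHom (H747.ofIdeals A hI) (GlueDatum.unit A R₀ R₁ R₀₁) where
  f₀ := Submodule.subtype I₀
  f₁ := Submodule.subtype I₁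
  f₀₁ := Submodule.subtype I₀₁
  comm₀ := fun _ => rfl
  comm₁ := fun _ => rfl

theorem inclHom_injective : (inclHom (A := A) hI).Injective :=
  ⟨Subtype.val_injective, Subtype.val_injective⟩

theorem range_inclHom_f₀ : LinearMap.range (inclHom (A := A) hI).f₀ = I₀ :=
  Submodule.range_subtype I₀

theorem range_inclHom_f₁ : LinearMap.range (inclHom (A := A) hI).f₁ = I₁ :=
  Submodule.range_subtype I₁

theorem range_inclHom_f₀₁ : LinearMap.range (inclHom (A := A) hI).f₀₁ = I₀₁ :=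
  Submodule.range_subtype I₀₁

omit [IsScalarTower A R₀ R₀₁] [IsScalarTower A R₁ R₀₁] [Algebra A R₀] [Algebra A R₁]
  [Algebra A R₀₁] [CommRing A] in
/-- `I₀₁` is an invertible module. -/
theorem invertible_I₀₁ {I₀ : Ideal R₀} {I₁ : Ideal R₁} {I₀₁ : Ideal R₀₁}
    (hI : H747.IsCartierTriple I₀ I₁ I₀₁) : Module.Invertible R₀₁ I₀₁ :=
  haveI := hI.inv₀
  Module.Invertible.congr hI.bc₀.equiv

variable (G : GlueDatum A R₀ R₁ R₀₁)

/-- The canonical morphism `G → ℋom(O(-D), G)`, `γ ↦ (a ↦ a • γ)`. -/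
def smulHom : H10.GDHom G (H747.homDatum (H747.ofIdeals A hI) G) where
  f₀ := idealSmulHom I₀ G.N₀
  f₁ := idealSmulHom I₁ G.N₁
  f₀₁ := idealSmulHom I₀₁ G.N₀₁
  comm₀ := fun γ => by
    refine (H747.ofIdeals A hI).isBaseChange₀.algHom_ext _ _ ?_
    intro (a : I₀)
    refine Eq.trans ?_ (IsBaseChange.linearMapLeftRightHom_comp_apply
      (H747.ofIdeals A hI).isBaseChange₀ G.r₀ (idealSmulHom I₀ G.N₀ γ) a).symm
    show (algebraMap R₀ R₀₁ (a : R₀)) • G.r₀ γ = G.r₀ ((a : R₀) • γ)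
    rw [map_smul, algebraMap_smul]
  comm₁ := fun γ => by
    refine (H747.ofIdeals A hI).isBaseChange₁.algHom_ext _ _ ?_
    intro (a : I₁)
    refine Eq.trans ?_ (IsBaseChange.linearMapLeftRightHom_comp_apply
      (H747.ofIdeals A hI).isBaseChange₁ G.r₁ (idealSmulHom I₁ G.N₁ γ) a).symm
    show (algebraMap R₁ R₀₁ (a : R₁)) • G.r₁ γ = G.r₁ ((a : R₁) • γ)
    rw [map_smul, algebraMap_smul]

theorem range_smulHom_f₀ :
    LinearMap.range (smulHom hI G).f₀ = I₀ • (⊤ : Submodule R₀ (I₀ →ₗ[R₀] G.N₀)) :=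
  haveI := hI.inv₀
  range_idealSmulHom I₀

theorem range_smulHom_f₁ :
    LinearMap.range (smulHom hI G).f₁ = I₁ • (⊤ : Submodule R₁ (I₁ →ₗ[R₁] G.N₁)) :=
  haveI := hI.inv₁
  range_idealSmulHom I₁

theorem range_smulHom_f₀₁ :
    LinearMap.range (smulHom hI G).f₀₁ = I₀₁ • (⊤ : Submodule R₀₁ (I₀₁ →ₗ[R₀₁] G.N₀₁)) :=
  haveI := invertible_I₀₁ hI
  range_idealSmulHom I₀₁

theorem smulHom_injective [IsDomain R₀] [IsDomain R₁] : (smulHom hI G).Injective := by
  haveI := hI.inv₀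
  haveI := hI.inv₁
  haveI := G.invertible₀
  haveI := G.invertible₁
  constructor
  · rw [injective_iff_map_eq_zero]
    intro γ hγ
    obtain ⟨a, ha⟩ := exists_ne_zero_of_invertible (R := R₀) I₀
    have h1 : (a : R₀) • γ = 0 := congrArg (fun f : I₀ →ₗ[R₀] G.N₀ => f a) hγ
    exact smul_eq_zero_of_invertible h1 (fun h => ha (Subtype.ext h))
  · rw [injective_iff_map_eq_zero]
    intro γ hγ
    obtain ⟨a, ha⟩ := exists_ne_zero_of_invertible (R := R₁) I₁
    have h1 : (a : R₁) • γ = 0 := congrArg (fun f : I₁ →ₗ[R₁] G.N₁ => f a) hγ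
    exact smul_eq_zero_of_invertible h1 (fun h => ha (Subtype.ext h))

/-- `ofIdeals` only depends on the ideals. -/
theorem ofIdeals_congr {I₀ I₀' : Ideal R₀} {I₁ I₁' : Ideal R₁} {I₀₁ I₀₁' : Ideal R₀₁}
    (h : H747.IsCartierTriple I₀ I₁ I₀₁) (h' : H747.IsCartierTriple I₀' I₁' I₀₁')
    (e₀ : I₀ = I₀') (e₁ : I₁ = I₁') (e₀₁ : I₀₁ = I₀₁') :
    H747.ofIdeals A h = H747.ofIdeals A h' := by
  subst e₀ e₁ e₀₁
  rfl

end IdealDatum

end

end Fermat.Agent.S25.H206
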